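import Mathlib

/-!
# S16 / WP TH (helper346): the abstract Weil-representation argument

`WeilData p D`: a finite abelian group `D` with an `𝔽_p`-valued quadratic form `q` (polar form `b`,
non-degenerate) and a family `Θ : D → (ℍ → ℂ)` transforming under `T` and `S` like the theta
series of the cosets of an even lattice of rank 4 and level `p`:

* `Θ_d ∣[2] T = ψ(q d) Θ_d`,
* `Θ_d ∣[2] S = -p⁻¹ ∑_r ψ(b r d) Θ_r`,

with `Θ_0 ≠ 0`  (`ψ = ZMod.stdAddChar`).

`WeilData.main`: `Θ_0 ∣[2] γ = Θ_0` for `γ ∈ Γ₀(p)`, and `Θ_0 ∣[2] γ` is a linear combination of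
the `Θ_d` for every `γ ∈ SL(2, ℤ)`.

Proof: `|D| = p²` from `S² = -1`; the Gauss sum `G(1) = ∑_d ψ(q d) = -p` from
`S T S = T⁻¹ S T⁻¹`; `G(u) = -p` for all `u ≠ 0` since the cyclotomic polynomial divides
`∑_d X^{q d} + p`; then induction over words in `S, T` with the explicit formula
`Θ_0 ∣ γ = -p⁻¹ ∑_d ψ(u q d) Θ_d`, `u = d/c`, for `p ∤ c`.
-/

set_option autoImplicit false

noncomputable section

namespace Fermat.Agent.S16.H346

open UpperHalfPlane ModularForm CongruenceSubgroup MatrixGroups Matrix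
open scoped Manifold

/-- A family of functions on `ℍ` indexed by a finite quadratic module over `𝔽_p`, transforming
under `S` and `T` by the Weil representation (weight 2, signature `4 mod 8`). -/
structure WeilData (p : ℕ) [Fact p.Prime] (D : Type) [AddCommGroup D] [Fintype D] where
  q : D → ZMod p
  b : D → D → ZMod p
  Θ : D → ℍ → ℂ
  q_add : ∀ d r, q (d + r) = q d + b d r + q r
  q_nsmul : ∀ (n : ℕ) d, q (n • d) = (n : ZMod p) ^ 2 * q d
  b_add_left : ∀ d d' r, b (d + d') r = b d r + b d' r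
  b_comm : ∀ d r, b d r = b r d
  nondeg : ∀ r, r ≠ 0 → ∃ d, b d r ≠ 0
  slash_T : ∀ d, Θ d ∣[(2 : ℤ)] ModularGroup.T = (ZMod.stdAddChar (q d) : ℂ) • Θ d
  slash_S : ∀ d, Θ d ∣[(2 : ℤ)] ModularGroup.S =
    (-(p : ℂ)⁻¹) • ∑ r, (ZMod.stdAddChar (b r d) : ℂ) • Θ r
  ne_zero : Θ 0 ≠ 0

/-! ### matrix identities in `SL(2, ℤ)` -/

theorem modS_mul_S : ModularGroup.S * ModularGroup.S = (-1 : SL(2, ℤ)) := by
  apply Subtype.ext
  simp only [Matrix.SpecialLinearGroup.coe_mul, ModularGroup.coe_S,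
    Matrix.SpecialLinearGroup.coe_neg, Matrix.SpecialLinearGroup.coe_one]
  ext i j
  fin_cases i <;> fin_cases j <;> simp [Matrix.mul_apply, Fin.sum_univ_two]

theorem modS_T_S : ModularGroup.S * ModularGroup.T * ModularGroup.S =
    ModularGroup.T⁻¹ * ModularGroup.S * ModularGroup.T⁻¹ := by
  apply Subtype.ext
  simp only [Matrix.SpecialLinearGroup.coe_mul, ModularGroup.coe_S, ModularGroup.coe_T,
    ModularGroup.coe_T_inv]
  ext i j
  fin_cases i <;> fin_cases j <;> simp [Matrix.mul_apply, Fin.sum_univ_two]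

theorem modS_inv : ModularGroup.S⁻¹ = ModularGroup.S * ModularGroup.S * ModularGroup.S := by
  rw [inv_eq_iff_mul_eq_one]
  apply Subtype.ext
  simp only [Matrix.SpecialLinearGroup.coe_mul, ModularGroup.coe_S,
    Matrix.SpecialLinearGroup.coe_one]
  ext i j
  fin_cases i <;> fin_cases j <;> simp [Matrix.mul_apply, Fin.sum_univ_two]

theorem slash_two_S_mul_S (f : ℍ → ℂ) :
    f ∣[(2 : ℤ)] (ModularGroup.S * ModularGroup.S) = f := by
  rw [modS_mul_S]
  ext z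
  rw [SL_slash_apply]
  simp [denom]

theorem entries_mul_T (x : SL(2, ℤ)) :
    (x * ModularGroup.T) 1 0 = x 1 0 ∧ (x * ModularGroup.T) 1 1 = x 1 0 + x 1 1 := by
  simp [Matrix.SpecialLinearGroup.coe_mul, ModularGroup.coe_T, Matrix.mul_apply,
    Fin.sum_univ_two]

theorem entries_mul_T_inv (x : SL(2, ℤ)) :
    (x * ModularGroup.T⁻¹) 1 0 = x 1 0 ∧ (x * ModularGroup.T⁻¹) 1 1 = x 1 1 - x 1 0 := by
  simp [Matrix.SpecialLinearGroup.coe_mul, Matrix.mul_apply, Fin.sum_univ_two]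
  ring

theorem entries_mul_S (x : SL(2, ℤ)) :
    (x * ModularGroup.S) 1 0 = x 1 1 ∧ (x * ModularGroup.S) 1 1 = -x 1 0 := by
  simp [Matrix.SpecialLinearGroup.coe_mul, ModularGroup.coe_S, Matrix.mul_apply,
    Fin.sum_univ_two]

/-- the bottom row of an element of `SL(2, ℤ)` is non-zero modulo `p`. -/
theorem bottom_row_ne_zero (p : ℕ) [Fact p.Prime] (x : SL(2, ℤ))
    (hc : ((x 1 0 : ℤ) : ZMod p) = 0) : ((x 1 1 : ℤ) : ZMod p) ≠ 0 := by
  intro hd
  have hdet : (x 0 0 : ℤ) * x 1 1 - x 0 1 * x 1 0 = 1 := by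
    have := x.det_coe
    rwa [Matrix.det_fin_two] at this
  have h1 : (((x 0 0 : ℤ) * x 1 1 - x 0 1 * x 1 0 : ℤ) : ZMod p) = 1 := by
    rw [hdet]; simp
  push_cast at h1
  rw [hc, hd] at h1
  simp at h1

theorem natCast_p_ne_zero (p : ℕ) [Fact p.Prime] : (p : ℂ) ≠ 0 := by
  exact_mod_cast (Fact.out : p.Prime).ne_zero

namespace WeilData

variable {p : ℕ} [Fact p.Prime] {D : Type} [AddCommGroup D] [Fintype D] (W : WeilData p D)

/-! ### elementary consequences of the axioms -/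

theorem b_zero_left (r : D) : W.b 0 r = 0 := by
  have h := W.b_add_left 0 0 r
  rw [add_zero] at h
  exact left_eq_add.mp h

theorem b_zero_right (d : D) : W.b d 0 = 0 := by
  rw [W.b_comm, W.b_zero_left]

theorem q_zero : W.q 0 = 0 := by
  have h := W.q_add 0 0
  rw [add_zero, W.b_zero_left, add_zero] at h
  exact left_eq_add.mp h

theorem b_add_right (d r r' : D) : W.b d (r + r') = W.b d r + W.b d r' := by
  rw [W.b_comm, W.b_add_left, W.b_comm r, W.b_comm r']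

theorem b_nsmul_right (n : ℕ) (d r : D) : W.b d (n • r) = (n : ZMod p) * W.b d r := by
  induction n with
  | zero => simp [W.b_zero_right]
  | succ n ih =>
    rw [succ_nsmul, W.b_add_right, ih]
    push_cast
    ring

/-! ### the functions `F u` and the Gauss sums `G u` -/

/-- `F_u = ∑_d ψ(u q(d)) Θ_d`. -/
def F (u : ZMod p) : ℍ → ℂ := ∑ d, (ZMod.stdAddChar (u * W.q d) : ℂ) • W.Θ d

/-- the Gauss sum `G(u) = ∑_d ψ(u q(d))`. -/
def G (u : ZMod p) : ℂ := ∑ d, (ZMod.stdAddChar (u * W.q d) : ℂ)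

theorem F_slash_T (u : ZMod p) : W.F u ∣[(2 : ℤ)] ModularGroup.T = W.F (u + 1) := by
  unfold F
  rw [SlashAction.sum_slash]
  refine Finset.sum_congr rfl fun d _ => ?_
  rw [SL_smul_slash, W.slash_T, smul_smul, ← AddChar.map_add_eq_mul]
  congr 2
  ring

theorem slash_T_inv_of {f g : ℍ → ℂ} (h : g ∣[(2 : ℤ)] ModularGroup.T = f) :
    f ∣[(2 : ℤ)] ModularGroup.T⁻¹ = g := by
  rw [← h, ← SlashAction.slash_mul, mul_inv_cancel, SlashAction.slash_one]

theorem F_slash_T_inv (u : ZMod p) : W.F u ∣[(2 : ℤ)] ModularGroup.T⁻¹ = W.F (u - 1) := by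
  apply slash_T_inv_of
  rw [W.F_slash_T, sub_add_cancel]

theorem Θ_zero_slash_T : W.Θ 0 ∣[(2 : ℤ)] ModularGroup.T = W.Θ 0 := by
  rw [W.slash_T, W.q_zero, AddChar.map_zero_eq_one, one_smul]

theorem Θ_zero_slash_T_inv : W.Θ 0 ∣[(2 : ℤ)] ModularGroup.T⁻¹ = W.Θ 0 :=
  slash_T_inv_of W.Θ_zero_slash_T

theorem Θ_zero_slash_S : W.Θ 0 ∣[(2 : ℤ)] ModularGroup.S = (-(p : ℂ)⁻¹) • W.F 0 := by
  rw [W.slash_S]
  congr 1
  unfold F
  refine Finset.sum_congr rfl fun d _ => ?_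
  rw [W.b_zero_right, zero_mul]

/-- orthogonality of characters. -/
theorem sum_char_zero : ∑ d, (ZMod.stdAddChar (W.b d 0) : ℂ) = (Fintype.card D : ℂ) := by
  simp [W.b_zero_right]

theorem sum_char_ne {r : D} (hr : r ≠ 0) : ∑ d, (ZMod.stdAddChar (W.b d r) : ℂ) = 0 := by
  obtain ⟨d₀, hd₀⟩ := W.nondeg r hr
  have hne : (ZMod.stdAddChar (W.b d₀ r) : ℂ) ≠ 1 := by
    intro h
    apply hd₀
    apply ZMod.injective_stdAddChar (N := p)
    rw [h, AddChar.map_zero_eq_one]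
  have hshift : ∑ d, (ZMod.stdAddChar (W.b (d + d₀) r) : ℂ) =
      ∑ d, (ZMod.stdAddChar (W.b d r) : ℂ) :=
    Fintype.sum_equiv (Equiv.addRight d₀) _ _ (fun d => rfl)
  have hmul : ∑ d, (ZMod.stdAddChar (W.b (d + d₀) r) : ℂ) =
      (ZMod.stdAddChar (W.b d₀ r) : ℂ) * ∑ d, (ZMod.stdAddChar (W.b d r) : ℂ) := by
    rw [Finset.mul_sum]
    refine Finset.sum_congr rfl fun d _ => ?_
    rw [W.b_add_left, AddChar.map_add_eq_mul, mul_comm]
  rw [hshift] at hmul
  have h3 : (1 - (ZMod.stdAddChar (W.b d₀ r) : ℂ)) *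
      ∑ d, (ZMod.stdAddChar (W.b d r) : ℂ) = 0 := by
    rw [sub_mul, one_mul, ← hmul, sub_self]
  rcases mul_eq_zero.mp h3 with h4 | h4
  · exact absurd (sub_eq_zero.mp h4).symm hne
  · exact h4

theorem F_zero_slash_S :
    W.F 0 ∣[(2 : ℤ)] ModularGroup.S = (-(p : ℂ)⁻¹ * (Fintype.card D : ℂ)) • W.Θ 0 := by
  unfold F
  rw [SlashAction.sum_slash]
  have h1 : ∀ d, ((ZMod.stdAddChar (0 * W.q d) : ℂ) • W.Θ d) ∣[(2 : ℤ)] ModularGroup.S =
      ∑ r, (-(p : ℂ)⁻¹ * (ZMod.stdAddChar (W.b d r) : ℂ)) • W.Θ r := by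
    intro d
    rw [zero_mul, AddChar.map_zero_eq_one, one_smul, W.slash_S, Finset.smul_sum]
    refine Finset.sum_congr rfl fun r _ => ?_
    rw [smul_smul, W.b_comm]
  simp_rw [h1]
  rw [Finset.sum_comm]
  have h2 : ∀ r, ∑ d, (-(p : ℂ)⁻¹ * (ZMod.stdAddChar (W.b d r) : ℂ)) • W.Θ r =
      (-(p : ℂ)⁻¹ * ∑ d, (ZMod.stdAddChar (W.b d r) : ℂ)) • W.Θ r := by
    intro r
    rw [← Finset.sum_smul, ← Finset.mul_sum]
  simp_rw [h2]
  rw [Finset.sum_eq_single 0]
  · rw [W.sum_char_zero]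
  · intro r _ hr
    rw [W.sum_char_ne hr, mul_zero, zero_smul]
  · intro h
    exact absurd (Finset.mem_univ _) h

theorem exists_ne_zero : ∃ z, W.Θ 0 z ≠ 0 := by
  by_contra h
  apply W.ne_zero
  funext z
  by_contra hz
  exact h ⟨z, hz⟩

theorem eq_of_smul_Θ_zero {a c : ℂ} (h : a • W.Θ 0 = c • W.Θ 0) : a = c := by
  obtain ⟨z, hz⟩ := W.exists_ne_zero
  have := congrFun h z
  simp only [Pi.smul_apply, smul_eq_mul] at this
  exact mul_right_cancel₀ hz this


/-- `|D| = p²`, from `S² = -1`. -/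
theorem card_eq (W : WeilData p D) : (Fintype.card D : ℂ) = (p : ℂ) ^ 2 := by
  have h1 : W.Θ 0 ∣[(2 : ℤ)] (ModularGroup.S * ModularGroup.S) =
      (-(p : ℂ)⁻¹ * (-(p : ℂ)⁻¹ * (Fintype.card D : ℂ))) • W.Θ 0 := by
    rw [SlashAction.slash_mul, W.Θ_zero_slash_S, SL_smul_slash, W.F_zero_slash_S, smul_smul]
  rw [slash_two_S_mul_S] at h1
  have h2 : (1 : ℂ) • W.Θ 0 = (-(p : ℂ)⁻¹ * (-(p : ℂ)⁻¹ * (Fintype.card D : ℂ))) • W.Θ 0 := by
    rw [one_smul]; exact h1
  have h3 := W.eq_of_smul_Θ_zero h2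
  have hp := natCast_p_ne_zero p
  field_simp at h3
  rw [← h3]

/-- completing the square. -/
theorem sum_square {u : ZMod p} (hu : u ≠ 0) (r : D) :
    ∑ d, (ZMod.stdAddChar (u * W.q d + W.b d r) : ℂ) =
      (ZMod.stdAddChar (-u⁻¹ * W.q r) : ℂ) * W.G u := by
  set n : ℕ := (u⁻¹).val with hn
  have hn' : (n : ZMod p) = u⁻¹ := by rw [hn, ZMod.natCast_zmod_val]
  have hshift : ∑ d, (ZMod.stdAddChar (u * W.q (d + n • r)) : ℂ) = W.G u :=
    Fintype.sum_equiv (Equiv.addRight (n • r)) _ _ (fun d => rfl)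
  rw [← hshift, Finset.mul_sum]
  refine Finset.sum_congr rfl fun d _ => ?_
  rw [← AddChar.map_add_eq_mul]
  congr 1
  rw [W.q_add, W.b_nsmul_right, W.q_nsmul, hn']
  have huu : u * u⁻¹ = 1 := mul_inv_cancel₀ hu
  linear_combination (-(W.b d r) - u⁻¹ * W.q r) * huu

theorem F_slash_S {u : ZMod p} (hu : u ≠ 0) :
    W.F u ∣[(2 : ℤ)] ModularGroup.S = (-(p : ℂ)⁻¹ * W.G u) • W.F (-u⁻¹) := by
  unfold F
  rw [SlashAction.sum_slash]
  have h1 : ∀ d, ((ZMod.stdAddChar (u * W.q d) : ℂ) • W.Θ d) ∣[(2 : ℤ)] ModularGroup.S =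
      ∑ r, (-(p : ℂ)⁻¹ * (ZMod.stdAddChar (u * W.q d + W.b d r) : ℂ)) • W.Θ r := by
    intro d
    rw [SL_smul_slash, W.slash_S, smul_smul, Finset.smul_sum]
    refine Finset.sum_congr rfl fun r _ => ?_
    rw [smul_smul, W.b_comm r d, AddChar.map_add_eq_mul]
    congr 1
    ring
  simp_rw [h1]
  rw [Finset.sum_comm, Finset.smul_sum]
  refine Finset.sum_congr rfl fun r _ => ?_
  rw [← Finset.sum_smul, ← Finset.mul_sum, W.sum_square hu, smul_smul]
  congr 1
  ring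

/-! ### the Gauss sum -/

theorem F_neg_one_ne_zero : W.F (-1) ≠ 0 := by
  intro h
  have h1 : W.Θ 0 ∣[(2 : ℤ)] (ModularGroup.S * ModularGroup.T⁻¹) = (-(p : ℂ)⁻¹) • W.F (-1) := by
    rw [SlashAction.slash_mul, W.Θ_zero_slash_S, SL_smul_slash, W.F_slash_T_inv, zero_sub]
  rw [h, smul_zero, SlashAction.slash_eq_zero_iff] at h1
  exact W.ne_zero h1

theorem G_one : W.G 1 = -(p : ℂ) := by
  have hp := natCast_p_ne_zero p
  have hL : W.Θ 0 ∣[(2 : ℤ)] (ModularGroup.S * ModularGroup.T * ModularGroup.S) =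
      (-(p : ℂ)⁻¹ * (-(p : ℂ)⁻¹ * W.G 1)) • W.F (-1) := by
    rw [SlashAction.slash_mul, SlashAction.slash_mul, W.Θ_zero_slash_S, SL_smul_slash,
      W.F_slash_T, zero_add, SL_smul_slash, W.F_slash_S one_ne_zero, smul_smul, inv_one]
  have hR : W.Θ 0 ∣[(2 : ℤ)] (ModularGroup.T⁻¹ * ModularGroup.S * ModularGroup.T⁻¹) =
      (-(p : ℂ)⁻¹) • W.F (-1) := by
    rw [SlashAction.slash_mul, SlashAction.slash_mul, W.Θ_zero_slash_T_inv, W.Θ_zero_slash_S,
      SL_smul_slash, W.F_slash_T_inv, zero_sub]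
  rw [modS_T_S, hR] at hL
  obtain ⟨z, hz⟩ : ∃ z, W.F (-1) z ≠ 0 := by
    by_contra h
    apply W.F_neg_one_ne_zero
    funext z
    by_contra hz
    exact h ⟨z, hz⟩
  have h3 := congrFun hL z
  simp only [Pi.smul_apply, smul_eq_mul] at h3
  have h4 := mul_right_cancel₀ hz h3
  field_simp at h4
  linear_combination -h4

/-- `ψ(a) = ζ^(a.val)` for `ζ = ψ(1)`. -/
theorem stdAddChar_eq_pow (a : ZMod p) :
    (ZMod.stdAddChar a : ℂ) = (ZMod.stdAddChar (1 : ZMod p) : ℂ) ^ a.val := by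
  rw [← AddChar.map_nsmul_eq_pow, nsmul_eq_mul, mul_one, ZMod.natCast_zmod_val]

theorem isPrimitiveRoot_stdAddChar_one :
    IsPrimitiveRoot (ZMod.stdAddChar (1 : ZMod p) : ℂ) p := by
  have h := Complex.isPrimitiveRoot_exp p (Fact.out : p.Prime).ne_zero
  have h1 : (ZMod.stdAddChar (1 : ZMod p) : ℂ) = Complex.exp (2 * Real.pi * Complex.I / p) := by
    have := ZMod.stdAddChar_coe (N := p) 1
    simpa using this
  rw [h1]
  exact h

/-- the Gauss sums `G(u)`, `u ≠ 0`, all equal `-p`. -/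
theorem G_eq {u : ZMod p} (hu : u ≠ 0) : W.G u = -(p : ℂ) := by
  classical
  have hp : p.Prime := Fact.out
  set ζ : ℂ := (ZMod.stdAddChar (1 : ZMod p) : ℂ) with hζ
  have hζp : IsPrimitiveRoot ζ p := isPrimitiveRoot_stdAddChar_one
  -- the polynomial `R = ∑_d X^(q d).val + p`
  set R : Polynomial ℤ := ∑ d : D, (Polynomial.X : Polynomial ℤ) ^ (W.q d).val +
    Polynomial.C (p : ℤ) with hR
  have hev : ∀ x : ℂ, Polynomial.aeval x R = ∑ d : D, x ^ (W.q d).val + (p : ℂ) := by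
    intro x
    simp [hR]
  have h1 : Polynomial.aeval ζ R = 0 := by
    rw [hev]
    have : ∑ d : D, ζ ^ (W.q d).val = W.G 1 := by
      unfold G
      refine Finset.sum_congr rfl fun d _ => ?_
      rw [one_mul, stdAddChar_eq_pow]
    rw [this, W.G_one]
    ring
  have hint : IsIntegral ℤ ζ := hζp.isIntegral hp.pos
  have hdvd : Polynomial.cyclotomic p ℤ ∣ R := by
    rw [Polynomial.cyclotomic_eq_minpoly hζp hp.pos]
    exact minpoly.isIntegrallyClosed_dvd hint h1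
  -- `ζ^(u.val)` is again a primitive root
  have hcop : (u.val).Coprime p := by
    rw [Nat.coprime_comm, Nat.Prime.coprime_iff_not_dvd hp]
    intro hdiv
    apply hu
    have := (ZMod.natCast_eq_zero_iff u.val p).mpr hdiv
    rwa [ZMod.natCast_zmod_val] at this
  have hζu : IsPrimitiveRoot (ζ ^ u.val) p := hζp.pow_of_coprime _ hcop
  have h2 : Polynomial.aeval (ζ ^ u.val) R = 0 := by
    obtain ⟨Q, hQ⟩ := hdvd
    rw [hQ, map_mul]
    have h3 : Polynomial.aeval (ζ ^ u.val) (Polynomial.cyclotomic p ℤ) = 0 := by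
      have h4 := IsPrimitiveRoot.isRoot_cyclotomic hp.pos hζu
      rw [Polynomial.IsRoot.def, ← Polynomial.map_cyclotomic_int p ℂ, Polynomial.eval_map] at h4
      rw [Polynomial.aeval_def]
      exact h4
    rw [h3, zero_mul]
  rw [hev] at h2
  have h5 : ∑ d : D, (ζ ^ u.val) ^ (W.q d).val = W.G u := by
    unfold G
    refine Finset.sum_congr rfl fun d _ => ?_
    rw [← pow_mul, hζ, ← AddChar.map_nsmul_eq_pow, nsmul_eq_mul, mul_one]
    congr 1
    push_cast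
    rw [ZMod.natCast_zmod_val, ZMod.natCast_zmod_val]
  rw [h5] at h2
  linear_combination h2

/-! ### the induction -/

/-- the explicit formula for `Θ_0 ∣ γ`. -/
def Formula (γ : SL(2, ℤ)) : Prop :=
  (((γ 1 0 : ℤ) : ZMod p) = 0 → W.Θ 0 ∣[(2 : ℤ)] γ = W.Θ 0) ∧
    (((γ 1 0 : ℤ) : ZMod p) ≠ 0 → ∀ u : ZMod p, u * ((γ 1 0 : ℤ) : ZMod p) = ((γ 1 1 : ℤ) : ZMod p) →
      W.Θ 0 ∣[(2 : ℤ)] γ = (-(p : ℂ)⁻¹) • W.F u)

theorem formula_one : W.Formula 1 := by
  refine ⟨fun _ => SlashAction.slash_one _ _, fun h => ?_⟩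
  exact absurd (by simp) h

theorem formula_mul_T {x : SL(2, ℤ)} (hx : W.Formula x) : W.Formula (x * ModularGroup.T) := by
  obtain ⟨h10, h11⟩ := entries_mul_T x
  refine ⟨fun hc => ?_, fun hc u hu => ?_⟩
  · rw [h10] at hc
    rw [SlashAction.slash_mul, hx.1 hc, W.Θ_zero_slash_T]
  · rw [h10] at hc hu
    rw [h11] at hu
    push_cast at hu
    have hu' : (u - 1) * ((x 1 0 : ℤ) : ZMod p) = ((x 1 1 : ℤ) : ZMod p) := by
      linear_combination hu
    rw [SlashAction.slash_mul, hx.2 hc (u - 1) hu', SL_smul_slash, W.F_slash_T, sub_add_cancel]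

theorem formula_mul_T_inv {x : SL(2, ℤ)} (hx : W.Formula x) :
    W.Formula (x * ModularGroup.T⁻¹) := by
  obtain ⟨h10, h11⟩ := entries_mul_T_inv x
  refine ⟨fun hc => ?_, fun hc u hu => ?_⟩
  · rw [h10] at hc
    rw [SlashAction.slash_mul, hx.1 hc, W.Θ_zero_slash_T_inv]
  · rw [h10] at hc hu
    rw [h11] at hu
    push_cast at hu
    have hu' : (u + 1) * ((x 1 0 : ℤ) : ZMod p) = ((x 1 1 : ℤ) : ZMod p) := by
      linear_combination hu
    rw [SlashAction.slash_mul, hx.2 hc (u + 1) hu', SL_smul_slash, W.F_slash_T_inv,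
      add_sub_cancel_right]

theorem formula_mul_S {x : SL(2, ℤ)} (hx : W.Formula x) : W.Formula (x * ModularGroup.S) := by
  have hp := natCast_p_ne_zero p
  obtain ⟨h10, h11⟩ := entries_mul_S x
  refine ⟨fun hd => ?_, fun hd u hu => ?_⟩
  · -- `p ∣ d`, hence `p ∤ c`
    rw [h10] at hd
    have hc : ((x 1 0 : ℤ) : ZMod p) ≠ 0 := by
      intro hc
      exact bottom_row_ne_zero p x hc hd
    have h1 := hx.2 hc 0 (by rw [zero_mul, hd])
    rw [SlashAction.slash_mul, h1, SL_smul_slash, W.F_zero_slash_S, smul_smul, W.card_eq]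
    have : (-(p : ℂ)⁻¹ * (-(p : ℂ)⁻¹ * (p : ℂ) ^ 2)) = 1 := by
      field_simp
    rw [this, one_smul]
  · rw [h10] at hd hu
    rw [h11] at hu
    push_cast at hu
    by_cases hc : ((x 1 0 : ℤ) : ZMod p) = 0
    · -- `p ∣ c`
      have hu0 : u = 0 := by
        rw [hc, neg_zero] at hu
        rcases mul_eq_zero.mp hu with h | h
        · exact h
        · exact absurd h hd
      rw [SlashAction.slash_mul, hx.1 hc, W.Θ_zero_slash_S, hu0]
    · -- `p ∤ c d`
      set c := ((x 1 0 : ℤ) : ZMod p) with hcdef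
      set d := ((x 1 1 : ℤ) : ZMod p) with hddef
      have hv : (d * c⁻¹) * c = d := by
        rw [mul_assoc, inv_mul_cancel₀ hc, mul_one]
      have hvne : d * c⁻¹ ≠ 0 := mul_ne_zero hd (inv_ne_zero hc)
      have h1 := hx.2 hc (d * c⁻¹) hv
      have hu' : u = -(d * c⁻¹)⁻¹ := by
        rw [mul_inv, inv_inv]
        have hdd : d * d⁻¹ = 1 := mul_inv_cancel₀ hd
        linear_combination d⁻¹ * hu - u * hdd
      rw [SlashAction.slash_mul, h1, SL_smul_slash, W.F_slash_S hvne, smul_smul,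
        W.G_eq hvne, ← hu']
      congr 1
      field_simp

theorem formula (γ : SL(2, ℤ)) : W.Formula γ := by
  have hγ : γ ∈ Subgroup.closure ({ModularGroup.S, ModularGroup.T} : Set SL(2, ℤ)) := by
    rw [SpecialLinearGroup.SL2Z_generators]
    exact Subgroup.mem_top _
  induction hγ using Subgroup.closure_induction_right with
  | one => exact W.formula_one
  | mul_right x hx y hy ih =>
    rcases hy with rfl | rfl
    · exact W.formula_mul_S ih
    · exact W.formula_mul_T ih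
  | mul_inv_cancel x hx y hy ih =>
    rcases hy with rfl | rfl
    · rw [modS_inv, ← mul_assoc, ← mul_assoc]
      exact W.formula_mul_S (W.formula_mul_S (W.formula_mul_S ih))
    · exact W.formula_mul_T_inv ih

/-- **Main theorem**: `Θ_0` is invariant under `Γ₀(p)` in weight 2, and all its `SL(2, ℤ)`
translates are linear combinations of the `Θ_d`. -/
theorem main (γ : SL(2, ℤ)) :
    (((γ 1 0 : ℤ) : ZMod p) = 0 → W.Θ 0 ∣[(2 : ℤ)] γ = W.Θ 0) ∧
      ∃ c : D → ℂ, W.Θ 0 ∣[(2 : ℤ)] γ = ∑ d, c d • W.Θ d := by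
  classical
  have h := W.formula γ
  refine ⟨h.1, ?_⟩
  by_cases hc : ((γ 1 0 : ℤ) : ZMod p) = 0
  · refine ⟨fun d => if d = 0 then 1 else 0, ?_⟩
    rw [h.1 hc]
    simp
  · refine ⟨fun d => -(p : ℂ)⁻¹ * (ZMod.stdAddChar
      ((((γ 1 1 : ℤ) : ZMod p) * ((γ 1 0 : ℤ) : ZMod p)⁻¹) * W.q d) : ℂ), ?_⟩
    rw [h.2 hc _ (by rw [mul_assoc, inv_mul_cancel₀ hc, mul_one])]
    unfold F
    rw [Finset.smul_sum]
    refine Finset.sum_congr rfl fun d _ => ?_
    rw [smul_smul]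

end WeilData

end Fermat.Agent.S16.H346
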