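import Fermat.Agent.S16.H346.ThLat

/-!
# S16 / WP TH-AN (helper346): analytic properties of the theta series with characteristic

Summability (with explicit real majorants), holomorphy, boundedness at `i∞`, non-vanishing.
-/

set_option autoImplicit false
set_option linter.unusedSectionVars false

noncomputable section

namespace Fermat.Agent.S16.H346

open UpperHalfPlane ModularForm CongruenceSubgroup MatrixGroups ModularFormClass Matrix
open Fermat.Agent.S20 (MF SF)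
open scoped Manifold

variable {p : ℕ} [Fact p.Prime] {A B : Matrix (Fin 4) (Fin 4) ℤ}

/-! ### the one-dimensional Gaussian and its fourfold product -/

theorem summable_exp_neg_sq {a : ℝ} (ha : 0 < a) :
    Summable (fun n : ℤ => Real.exp (-a * (n : ℝ) ^ 2)) := by
  have hτ : 0 < ((a / Real.pi : ℝ) * Complex.I).im := by
    simp only [Complex.mul_im, Complex.ofReal_re, Complex.I_im, mul_one, Complex.ofReal_im,
      Complex.I_re, mul_zero, add_zero]
    positivity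
  have h := ((summable_jacobiTheta₂_term_iff 0 ((a / Real.pi : ℝ) * Complex.I)).mpr hτ).norm
  refine h.congr fun n => ?_
  rw [jacobiTheta₂_term, Complex.norm_exp]
  congr 1
  have hpi : (Real.pi : ℂ) ≠ 0 := by exact_mod_cast Real.pi_ne_zero
  have : (2 * Real.pi * Complex.I * n * 0 + Real.pi * Complex.I * n ^ 2 *
      ((a / Real.pi : ℝ) * Complex.I) : ℂ) = ((-a * (n : ℝ) ^ 2 : ℝ) : ℂ) := by
    push_cast
    field_simp
    linear_combination ((n : ℂ) ^ 2 * a) * Complex.I_sq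
  rw [this, Complex.ofReal_re]

theorem summable_gauss_prod {a : ℝ} (ha : 0 < a) :
    Summable (fun x : Fin 4 → ℤ =>
      Real.exp (-a * (x 0 : ℝ) ^ 2) * (Real.exp (-a * (x 1 : ℝ) ^ 2) *
        (Real.exp (-a * (x 2 : ℝ) ^ 2) * Real.exp (-a * (x 3 : ℝ) ^ 2)))) := by
  obtain ⟨g, hg⟩ : ∃ g : ℤ → ℝ, g = fun n : ℤ => Real.exp (-a * (n : ℝ) ^ 2) := ⟨_, rfl⟩
  have h1 : Summable g := by rw [hg]; exact summable_exp_neg_sq ha
  have hnn : (0 : ℤ → ℝ) ≤ g := by
    intro n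
    rw [hg]
    exact (Real.exp_pos _).le
  have h2 : Summable (fun x : ℤ × ℤ => g x.1 * g x.2) := h1.mul_of_nonneg h1 hnn hnn
  have hnn2 : (0 : ℤ × ℤ → ℝ) ≤ fun x : ℤ × ℤ => g x.1 * g x.2 :=
    fun x => mul_nonneg (hnn _) (hnn _)
  have h3 : Summable (fun x : ℤ × ℤ × ℤ => g x.1 * (g x.2.1 * g x.2.2)) :=
    h1.mul_of_nonneg h2 hnn hnn2
  have hnn3 : (0 : ℤ × ℤ × ℤ → ℝ) ≤ fun x : ℤ × ℤ × ℤ => g x.1 * (g x.2.1 * g x.2.2) :=
    fun x => mul_nonneg (hnn _) (mul_nonneg (hnn _) (hnn _))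
  have h4 : Summable (fun x : ℤ × ℤ × ℤ × ℤ => g x.1 * (g x.2.1 * (g x.2.2.1 * g x.2.2.2))) :=
    h1.mul_of_nonneg h3 hnn hnn3
  have hinj : Function.Injective (fun x : Fin 4 → ℤ => (x 0, x 1, x 2, x 3)) := by
    intro x y h
    simp only [Prod.mk.injEq] at h
    funext i
    fin_cases i
    · exact h.1
    · exact h.2.1
    · exact h.2.2.1
    · exact h.2.2.2
  have h5 := h4.comp_injective hinj
  refine h5.congr fun x => ?_
  simp only [Function.comp_apply, hg]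

/-! ### summability for a good lattice -/

theorem sum_B_diag_pos (hA : IsGoodLattice p A B) : 0 < B 0 0 + B 1 1 + B 2 2 + B 3 3 := by
  have h0 := B_diag_pos hA 0
  have h1 := B_diag_pos hA 1
  have h2 := B_diag_pos hA 2
  have h3 := B_diag_pos hA 3
  linarith

/-- coercivity, summed: `p ∑ xᵢ² ≤ 4 β xᵀAx`, `β = tr B`. -/
theorem coercive_sum (hA : IsGoodLattice p A B) (x : Fin 4 → ℤ) :
    (p : ℤ) * (x 0 ^ 2 + x 1 ^ 2 + x 2 ^ 2 + x 3 ^ 2) ≤
      4 * (B 0 0 + B 1 1 + B 2 2 + B 3 3) * qf A x := by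
  have hq := qf_nonneg hA x
  have h0 := B_diag_pos hA 0
  have h1 := B_diag_pos hA 1
  have h2 := B_diag_pos hA 2
  have h3 := B_diag_pos hA 3
  have c0 := coercive hA x 0
  have c1 := coercive hA x 1
  have c2 := coercive hA x 2
  have c3 := coercive hA x 3
  nlinarith [mul_nonneg h0.le hq, mul_nonneg h1.le hq, mul_nonneg h2.le hq, mul_nonneg h3.le hq]

/-- basic summability of the Gaussian. -/
theorem summable_gauss (hA : IsGoodLattice p A B) {t : ℝ} (ht : 0 < t) :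
    Summable (fun v : Fin 4 → ℤ => Real.exp (-t * (qf A v : ℝ))) := by
  have hp : (0 : ℝ) < p := by exact_mod_cast (Fact.out : p.Prime).pos
  have hβ : (0 : ℝ) < ((B 0 0 + B 1 1 + B 2 2 + B 3 3 : ℤ) : ℝ) := by
    exact_mod_cast sum_B_diag_pos hA
  set β : ℝ := ((B 0 0 + B 1 1 + B 2 2 + B 3 3 : ℤ) : ℝ) with hβdef
  set a : ℝ := t * p / (4 * β) with hadef
  have ha : 0 < a := by positivity
  refine Summable.of_nonneg_of_le (fun v => (Real.exp_pos _).le) (fun v => ?_)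
    (summable_gauss_prod ha)
  rw [← Real.exp_add, ← Real.exp_add, ← Real.exp_add]
  apply Real.exp_le_exp.mpr
  have hc : ((p : ℤ) : ℝ) * ((v 0 : ℝ) ^ 2 + (v 1 : ℝ) ^ 2 + (v 2 : ℝ) ^ 2 + (v 3 : ℝ) ^ 2) ≤
      4 * β * (qf A v : ℝ) := by
    have := coercive_sum hA v
    rw [hβdef]
    exact_mod_cast this
  have h1 : a * ((v 0 : ℝ) ^ 2 + (v 1 : ℝ) ^ 2 + (v 2 : ℝ) ^ 2 + (v 3 : ℝ) ^ 2) ≤
      t * (qf A v : ℝ) := by
    rw [hadef, div_mul_eq_mul_div, div_le_iff₀ (by positivity)]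
    have : t * ↑p * ((v 0 : ℝ) ^ 2 + (v 1 : ℝ) ^ 2 + (v 2 : ℝ) ^ 2 + (v 3 : ℝ) ^ 2) =
        t * (((p : ℤ) : ℝ) * ((v 0 : ℝ) ^ 2 + (v 1 : ℝ) ^ 2 + (v 2 : ℝ) ^ 2 + (v 3 : ℝ) ^ 2)) := by
      push_cast; ring
    rw [this]
    calc t * (((p : ℤ) : ℝ) * ((v 0 : ℝ) ^ 2 + (v 1 : ℝ) ^ 2 + (v 2 : ℝ) ^ 2 + (v 3 : ℝ) ^ 2))
        ≤ t * (4 * β * (qf A v : ℝ)) := mul_le_mul_of_nonneg_left hc ht.le
      _ = t * (qf A v : ℝ) * (4 * β) := by ring
  linarith

/-- the exponent, as a real number, is `qf A (p x + B y) / p²`. -/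
theorem expo_eq_real (hA : IsGoodLattice p A B) (y x : Fin 4 → ℤ) :
    (qf A x : ℝ) + 2 * ((x ⬝ᵥ y : ℤ) : ℝ) + (qf B y : ℝ) / p =
      (qf A ((p : ℤ) • x + B.mulVec y) : ℝ) / (p : ℝ) ^ 2 := by
  have hp : (p : ℝ) ≠ 0 := by exact_mod_cast (Fact.out : p.Prime).ne_zero
  have h := expo_eq hA y x
  have h' : ((p : ℝ)) * (p * ((qf A x : ℝ) + 2 * ((x ⬝ᵥ y : ℤ) : ℝ)) + (qf B y : ℝ)) =
      (qf A ((p : ℤ) • x + B.mulVec y) : ℝ) := by
    exact_mod_cast h
  rw [← h']
  field_simp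

theorem expo_nonneg (hA : IsGoodLattice p A B) (y x : Fin 4 → ℤ) :
    0 ≤ (qf A x : ℝ) + 2 * ((x ⬝ᵥ y : ℤ) : ℝ) + (qf B y : ℝ) / p := by
  rw [expo_eq_real hA]
  have : (0 : ℝ) ≤ (qf A ((p : ℤ) • x + B.mulVec y) : ℝ) := by
    exact_mod_cast qf_nonneg hA _
  positivity

theorem shift_injective (_hA : IsGoodLattice p A B) (y : Fin 4 → ℤ) :
    Function.Injective (fun x : Fin 4 → ℤ => (p : ℤ) • x + B.mulVec y) := by
  have hp : (p : ℤ) ≠ 0 := by exact_mod_cast (Fact.out : p.Prime).ne_zero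
  intro x x' h
  have h1 : (p : ℤ) • x = (p : ℤ) • x' := add_right_cancel h
  funext i
  have := congrFun h1 i
  simp only [Pi.smul_apply, smul_eq_mul] at this
  exact mul_left_cancel₀ hp this

/-- summability of the (norms of the) terms of `thetaChar`, locally uniformly:
the real majorant at height `t`. -/
theorem summable_majorant (hA : IsGoodLattice p A B) (y : Fin 4 → ℤ) {t : ℝ} (ht : 0 < t) :
    Summable (fun x : Fin 4 → ℤ =>
      Real.exp (-t * ((qf A x : ℝ) + 2 * ((x ⬝ᵥ y : ℤ) : ℝ) + (qf B y : ℝ) / p))) := by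
  have hp : (0 : ℝ) < p := by exact_mod_cast (Fact.out : p.Prime).pos
  have h := (summable_gauss hA (t := t / (p : ℝ) ^ 2) (by positivity)).comp_injective
    (shift_injective hA y)
  refine h.congr fun x => ?_
  simp only [Function.comp_apply]
  rw [expo_eq_real hA]
  congr 1
  field_simp

theorem norm_term (y x : Fin 4 → ℤ) (z : ℂ) :
    ‖Complex.exp (Real.pi * Complex.I * z *
        ((qf A x : ℂ) + 2 * ((x ⬝ᵥ y : ℤ) : ℂ) + (qf B y : ℂ) / p))‖ =
      Real.exp (-(Real.pi * z.im) * ((qf A x : ℝ) + 2 * ((x ⬝ᵥ y : ℤ) : ℝ) + (qf B y : ℝ) / p)) := by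
  rw [Complex.norm_exp]
  congr 1
  have : ((qf A x : ℂ) + 2 * ((x ⬝ᵥ y : ℤ) : ℂ) + (qf B y : ℂ) / p) =
      (((qf A x : ℝ) + 2 * ((x ⬝ᵥ y : ℤ) : ℝ) + (qf B y : ℝ) / p : ℝ) : ℂ) := by
    push_cast
    rfl
  rw [this]
  have h2 : (Real.pi * Complex.I * z * (((qf A x : ℝ) + 2 * ((x ⬝ᵥ y : ℤ) : ℝ) +
      (qf B y : ℝ) / p : ℝ) : ℂ)) = ((Real.pi * ((qf A x : ℝ) + 2 * ((x ⬝ᵥ y : ℤ) : ℝ) +
      (qf B y : ℝ) / p) : ℝ) : ℂ) * (Complex.I * z) := by
    push_cast
    ring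
  rw [h2, Complex.re_ofReal_mul]
  simp
  ring

theorem summable_term (hA : IsGoodLattice p A B) (y : Fin 4 → ℤ) (z : ℍ) :
    Summable (fun x : Fin 4 → ℤ => Complex.exp (Real.pi * Complex.I * z *
      ((qf A x : ℂ) + 2 * ((x ⬝ᵥ y : ℤ) : ℂ) + (qf B y : ℂ) / p))) := by
  apply Summable.of_norm
  simp_rw [norm_term]
  exact summable_majorant hA y (mul_pos Real.pi_pos z.im_pos)

theorem norm_dual_term (y w : Fin 4 → ℤ) (z : ℂ) :
    ‖Complex.exp (Real.pi * Complex.I * z * ((qf B w : ℂ) / p) +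
        2 * Real.pi * Complex.I * (((w ⬝ᵥ B.mulVec y : ℤ) : ℂ) / p))‖ =
      Real.exp (-(Real.pi * z.im) * ((qf B w : ℝ) / p)) := by
  rw [Complex.norm_exp]
  congr 1
  have h2 : (Real.pi * Complex.I * z * ((qf B w : ℂ) / p) +
      2 * Real.pi * Complex.I * (((w ⬝ᵥ B.mulVec y : ℤ) : ℂ) / p)) =
      ((Real.pi * ((qf B w : ℝ) / p) : ℝ) : ℂ) * (Complex.I * z) +
      ((2 * Real.pi * (((w ⬝ᵥ B.mulVec y : ℤ) : ℝ) / p) : ℝ) : ℂ) * Complex.I := by
    push_cast
    ring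
  rw [h2, Complex.add_re, Complex.re_ofReal_mul, Complex.re_ofReal_mul]
  simp
  ring

/-- summability of the dual family in the inversion formula. -/
theorem summable_dual (hA : IsGoodLattice p A B) (y : Fin 4 → ℤ) (z : ℍ) :
    Summable (fun w : Fin 4 → ℤ =>
      Complex.exp (Real.pi * Complex.I * z * ((qf B w : ℂ) / p) +
        2 * Real.pi * Complex.I * (((w ⬝ᵥ B.mulVec y : ℤ) : ℂ) / p))) := by
  have hp : (0 : ℝ) < p := by exact_mod_cast (Fact.out : p.Prime).pos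
  apply Summable.of_norm
  simp_rw [norm_dual_term]
  have h := (summable_gauss hA (t := Real.pi * z.im / (p : ℝ) ^ 2)
    (by have := z.im_pos; positivity)).comp_injective (mulVec_B_injective hA)
  refine h.congr fun w => ?_
  simp only [Function.comp_apply]
  rw [qf_A_B hA]
  congr 1
  push_cast
  simp only [UpperHalfPlane.coe_im]
  field_simp

/-! ### holomorphy and boundedness -/

theorem mdiff_thetaChar (hA : IsGoodLattice p A B) (y : Fin 4 → ℤ) :
    MDiff (thetaChar p A B y) := by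
  rw [UpperHalfPlane.mdifferentiable_iff]
  intro z hz
  have hz' : 0 < z.im := hz
  set U : Set ℂ := {w : ℂ | z.im / 2 < w.im} with hU
  have hopen : IsOpen U := isOpen_lt continuous_const Complex.continuous_im
  have hzU : z ∈ U := by
    show z.im / 2 < z.im
    linarith
  have hdiff : DifferentiableOn ℂ (fun w : ℂ => ∑' x : Fin 4 → ℤ,
      Complex.exp (Real.pi * Complex.I * w *
        ((qf A x : ℂ) + 2 * ((x ⬝ᵥ y : ℤ) : ℂ) + (qf B y : ℂ) / p))) U := by
    refine Complex.differentiableOn_tsum_of_summable_norm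
      (summable_majorant hA y (t := Real.pi * (z.im / 2)) (by positivity))
      (fun x => ?_) hopen (fun x w hw => ?_)
    · apply Differentiable.differentiableOn
      fun_prop
    · rw [norm_term]
      apply Real.exp_le_exp.mpr
      have h1 := expo_nonneg hA y x
      have h2 : z.im / 2 < w.im := hw
      have h3 : Real.pi * (z.im / 2) ≤ Real.pi * w.im :=
        mul_le_mul_of_nonneg_left h2.le Real.pi_pos.le
      nlinarith
  have heq : (thetaChar p A B y ∘ ofComplex) =ᶠ[nhds z] (fun w : ℂ => ∑' x : Fin 4 → ℤ,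
      Complex.exp (Real.pi * Complex.I * w *
        ((qf A x : ℂ) + 2 * ((x ⬝ᵥ y : ℤ) : ℂ) + (qf B y : ℂ) / p))) := by
    filter_upwards [hopen.mem_nhds hzU] with w hw
    have hw' : 0 < w.im := by
      have : z.im / 2 < w.im := hw
      linarith
    simp only [Function.comp_apply, ofComplex_apply_of_im_pos hw']
    rfl
  exact ((hdiff.differentiableAt (hopen.mem_nhds hzU)).congr_of_eventuallyEq
    heq).differentiableWithinAt

theorem bounded_thetaChar (hA : IsGoodLattice p A B) (y : Fin 4 → ℤ) :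
    IsBoundedAtImInfty (thetaChar p A B y) := by
  rw [isBoundedAtImInfty_iff]
  refine ⟨∑' x : Fin 4 → ℤ,
    Real.exp (-(Real.pi * 1) * ((qf A x : ℝ) + 2 * ((x ⬝ᵥ y : ℤ) : ℝ) + (qf B y : ℝ) / p)), 1,
    fun z hz => ?_⟩
  have hs := summable_majorant hA y (t := Real.pi * z.im) (mul_pos Real.pi_pos z.im_pos)
  have hs1 := summable_majorant hA y (t := Real.pi * 1) (by positivity)
  have hn : Summable (fun x : Fin 4 → ℤ => ‖Complex.exp (Real.pi * Complex.I * z *
      ((qf A x : ℂ) + 2 * ((x ⬝ᵥ y : ℤ) : ℂ) + (qf B y : ℂ) / p))‖) := by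
    simp_rw [norm_term]
    exact hs
  unfold thetaChar
  refine (norm_tsum_le_tsum_norm hn).trans ?_
  refine hn.tsum_le_tsum (fun x => ?_) hs1
  rw [norm_term]
  apply Real.exp_le_exp.mpr
  have h1 := expo_nonneg hA y x
  have h3 : Real.pi * 1 ≤ Real.pi * z.im := mul_le_mul_of_nonneg_left hz Real.pi_pos.le
  have hcoe : ((z : ℂ)).im = z.im := rfl
  rw [hcoe]
  nlinarith

theorem thetaChar_zero (A B : Matrix (Fin 4) (Fin 4) ℤ) : thetaChar p A B 0 = thetaFun A := by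
  funext z
  unfold thetaChar thetaFun
  refine tsum_congr fun x => ?_
  simp [qf]

theorem thetaFun_ne_zero (hA : IsGoodLattice p A B) : thetaFun A ≠ 0 := by
  intro h
  have h1 : thetaFun A UpperHalfPlane.I = 0 := by rw [h]; rfl
  have hs := summable_gauss hA (t := Real.pi) Real.pi_pos
  have h2 : thetaFun A UpperHalfPlane.I =
      ((∑' x : Fin 4 → ℤ, Real.exp (-Real.pi * (qf A x : ℝ)) : ℝ) : ℂ) := by
    unfold thetaFun
    rw [Complex.ofReal_tsum]
    refine tsum_congr fun x => ?_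
    rw [UpperHalfPlane.coe_I, Complex.ofReal_exp]
    congr 1
    have : Real.pi * Complex.I * Complex.I * (qf A x : ℂ) =
        Real.pi * (Complex.I * Complex.I) * (qf A x : ℂ) := by ring
    rw [this, Complex.I_mul_I]
    push_cast
    ring
  rw [h2] at h1
  have h3 : 0 < ∑' x : Fin 4 → ℤ, Real.exp (-Real.pi * (qf A x : ℝ)) :=
    hs.tsum_pos (fun x => (Real.exp_pos _).le) 0 (Real.exp_pos _)
  have h4 : (∑' x : Fin 4 → ℤ, Real.exp (-Real.pi * (qf A x : ℝ))) = 0 := by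
    exact_mod_cast h1
  linarith

end Fermat.Agent.S16.H346
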