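import Fermat.Agent.S16.Defs

/-!
# S16 / WP TH (helper346): definitions

Verbatim copies (in namespace `Fermat.Agent.S16.H346`) of the lower-bound definitions of the S16
skeleton (`IsGoodLattice`, `qf`, `thetaChar`, `thetaFun`, `LowerBound`), so that the TH work package
can be developed on `main`.  They are definitionally equal to the skeleton versions.

New: the discriminant group `Disc A = ℤ⁴ / A ℤ⁴` and the `𝔽_p`-valued quadratic / bilinear
residues `qz`, `bz` of the dual form `B`.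
-/

set_option autoImplicit false

noncomputable section

namespace Fermat.Agent.S16.H346

open UpperHalfPlane ModularForm CongruenceSubgroup MatrixGroups ModularFormClass Matrix
open Fermat.Agent.S20 (MF SF)
open scoped Manifold

/-- Even positive definite quaternary lattice of determinant `p²` and level `p`. -/
structure IsGoodLattice (p : ℕ) (A B : Matrix (Fin 4) (Fin 4) ℤ) : Prop where
  symm : A.IsSymm
  even : ∀ i, Even (A i i)
  posDef : (A.map (Int.cast : ℤ → ℝ)).PosDef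
  mul_eq : A * B = (p : ℤ) • (1 : Matrix (Fin 4) (Fin 4) ℤ)
  even' : ∀ i, Even (B i i)
  det_eq : A.det = (p : ℤ) ^ 2

/-- quadratic form `xᵀ A x` -/
def qf (A : Matrix (Fin 4) (Fin 4) ℤ) (x : Fin 4 → ℤ) : ℤ := x ⬝ᵥ A.mulVec x

/-- Theta series with characteristic `A⁻¹ y = B y / p`:
`Θ_y(z) = ∑_x exp(πi z (xᵀAx + 2 xᵀy + yᵀBy/p))`. -/
def thetaChar (p : ℕ) (A B : Matrix (Fin 4) (Fin 4) ℤ) (y : Fin 4 → ℤ) (z : ℍ) : ℂ :=
  ∑' x : Fin 4 → ℤ,
    Complex.exp (Real.pi * Complex.I * z * ((qf A x : ℂ) + 2 * ((x ⬝ᵥ y : ℤ) : ℂ) + (qf B y : ℂ) / p))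

/-- The theta series `θ_A(z) = ∑_x exp(πi z xᵀAx)`. -/
def thetaFun (A : Matrix (Fin 4) (Fin 4) ℤ) (z : ℍ) : ℂ :=
  ∑' x : Fin 4 → ℤ, Complex.exp (Real.pi * Complex.I * z * (qf A x : ℂ))

/-- (LB) there is a form with constant term `1/2` and integral higher coefficients. -/
def LowerBound (p : ℕ) : Prop :=
  ∃ G ∈ MF (Gamma0 p) 2, qCoeff G 0 = 1 / 2 ∧ IntFrom1 G

/-- The inversion hypothesis (statement of WP INV for a general good lattice). -/
def ThetaInv (p : ℕ) (A B : Matrix (Fin 4) (Fin 4) ℤ) : Prop :=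
  ∀ (y : Fin 4 → ℤ) (z : ℍ), thetaChar p A B y (ModularGroup.S • z) =
    -(z : ℂ) ^ 2 / p * ∑' w : Fin 4 → ℤ,
      Complex.exp (Real.pi * Complex.I * z * ((qf B w : ℂ) / p) +
        2 * Real.pi * Complex.I * (((w ⬝ᵥ B.mulVec y : ℤ) : ℂ) / p))

/-- the sublattice `A ℤ⁴` of `ℤ⁴`. -/
def latA (A : Matrix (Fin 4) (Fin 4) ℤ) : AddSubgroup (Fin 4 → ℤ) :=
  (LinearMap.range (Matrix.mulVecLin A)).toAddSubgroup

/-- the discriminant group `ℤ⁴ / A ℤ⁴`. -/
abbrev Disc (A : Matrix (Fin 4) (Fin 4) ℤ) : Type := (Fin 4 → ℤ) ⧸ latA A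

/-- the projection `ℤ⁴ → ℤ⁴ / A ℤ⁴`. -/
def toDisc (A : Matrix (Fin 4) (Fin 4) ℤ) (y : Fin 4 → ℤ) : Disc A :=
  QuotientAddGroup.mk y

/-- the residue of `yᵀ B y / 2` modulo `p`. -/
def qz (p : ℕ) (B : Matrix (Fin 4) (Fin 4) ℤ) (y : Fin 4 → ℤ) : ZMod p :=
  ((qf B y / 2 : ℤ) : ZMod p)

/-- the residue of `yᵀ B w` modulo `p`. -/
def bz (p : ℕ) (B : Matrix (Fin 4) (Fin 4) ℤ) (y w : Fin 4 → ℤ) : ZMod p :=
  ((y ⬝ᵥ B.mulVec w : ℤ) : ZMod p)

end Fermat.Agent.S16.H346
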