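import Fermat.Agent.S16.H346.ThDefs

/-!
# S16 / WP TH-LAT (helper346): integer matrix algebra of a good lattice

For `IsGoodLattice p A B`: `B` is symmetric, `B * A = p`, the forms `qf A`, `qf B` are even,
`qf A` is positive, coercive (`p xᵢ² ≤ Bᵢᵢ · xᵀAx`); the discriminant group `Disc A` is finite;
the residues `qz`, `bz` are well defined on `Disc A`, `bz` is non-degenerate.
-/

set_option autoImplicit false
set_option linter.unusedSectionVars false

noncomputable section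

namespace Fermat.Agent.S16.H346

open Matrix

variable {p : ℕ} [Fact p.Prime] {A B : Matrix (Fin 4) (Fin 4) ℤ}

/-! ### `B * A = p` and symmetry of `B` -/

theorem cast_smul_one (p : ℕ) :
    ((p : ℤ) • (1 : Matrix (Fin 4) (Fin 4) ℤ)).map (Int.cast : ℤ → ℚ) =
      (p : ℚ) • (1 : Matrix (Fin 4) (Fin 4) ℚ) := by
  ext i j
  simp only [Matrix.map_apply, Matrix.smul_apply, Matrix.one_apply, smul_eq_mul]
  split_ifs <;> simp

theorem B_mul_A (hA : IsGoodLattice p A B) :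
    B * A = (p : ℤ) • (1 : Matrix (Fin 4) (Fin 4) ℤ) := by
  have hp : (p : ℚ) ≠ 0 := by exact_mod_cast (Fact.out : p.Prime).ne_zero
  have hinj : Function.Injective (fun M : Matrix (Fin 4) (Fin 4) ℤ => M.map (Int.cast : ℤ → ℚ)) :=
    Matrix.map_injective Int.cast_injective
  apply hinj
  have h1 : (A.map (Int.cast : ℤ → ℚ)) * (B.map (Int.cast : ℤ → ℚ)) =
      (p : ℚ) • (1 : Matrix (Fin 4) (Fin 4) ℚ) := by
    have := congrArg (fun M : Matrix (Fin 4) (Fin 4) ℤ => M.map (Int.cast : ℤ → ℚ)) hA.mul_eq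
    simp only [Matrix.map_mul_intCast] at this
    rw [this, cast_smul_one]
  have h2 : (A.map (Int.cast : ℤ → ℚ)) * ((p : ℚ)⁻¹ • B.map (Int.cast : ℤ → ℚ)) = 1 := by
    rw [Matrix.mul_smul, h1, smul_smul, inv_mul_cancel₀ hp, one_smul]
  have h3 := mul_eq_one_comm.mp h2
  rw [Matrix.smul_mul] at h3
  have h4 : (B.map (Int.cast : ℤ → ℚ)) * (A.map (Int.cast : ℤ → ℚ)) =
      (p : ℚ) • (1 : Matrix (Fin 4) (Fin 4) ℚ) := by
    rw [← h3, smul_smul, mul_inv_cancel₀ hp, one_smul]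
  show (B * A).map (Int.cast : ℤ → ℚ) = ((p : ℤ) • (1 : Matrix (Fin 4) (Fin 4) ℤ)).map Int.cast
  rw [Matrix.map_mul_intCast, h4, cast_smul_one]

theorem isSymm_B (hA : IsGoodLattice p A B) : B.IsSymm := by
  have hp : (p : ℤ) ≠ 0 := by exact_mod_cast (Fact.out : p.Prime).ne_zero
  have h1 : Bᵀ * A = (p : ℤ) • (1 : Matrix (Fin 4) (Fin 4) ℤ) := by
    have := congrArg Matrix.transpose hA.mul_eq
    rw [Matrix.transpose_mul, hA.symm.eq, Matrix.transpose_smul, Matrix.transpose_one] at this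
    exact this
  have h2 : Bᵀ * A * B = B * A * B := by rw [h1, B_mul_A hA]
  rw [Matrix.mul_assoc, Matrix.mul_assoc, hA.mul_eq, Matrix.mul_smul, Matrix.mul_smul,
    Matrix.mul_one, Matrix.mul_one] at h2
  unfold Matrix.IsSymm
  ext i j
  have := congrFun (congrFun h2 i) j
  simp only [Matrix.smul_apply, smul_eq_mul] at this
  exact mul_left_cancel₀ hp this

/-! ### bilinear algebra -/

theorem qf_add_of_symm {M : Matrix (Fin 4) (Fin 4) ℤ} (hM : M.IsSymm) (x y : Fin 4 → ℤ) :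
    qf M (x + y) = qf M x + 2 * (x ⬝ᵥ M.mulVec y) + qf M y := by
  have h : y ⬝ᵥ M.mulVec x = x ⬝ᵥ M.mulVec y := by
    rw [dotProduct_mulVec, ← mulVec_transpose, hM.eq, dotProduct_comm]
  simp only [qf, mulVec_add, dotProduct_add, add_dotProduct, h]
  ring

theorem qf_smul (M : Matrix (Fin 4) (Fin 4) ℤ) (a : ℤ) (x : Fin 4 → ℤ) :
    qf M (a • x) = a ^ 2 * qf M x := by
  simp only [qf, mulVec_smul, dotProduct_smul, smul_dotProduct, smul_eq_mul]
  ring

theorem dot_A_B (hA : IsGoodLattice p A B) (x y : Fin 4 → ℤ) :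
    x ⬝ᵥ A.mulVec (B.mulVec y) = (p : ℤ) * (x ⬝ᵥ y) := by
  rw [mulVec_mulVec, hA.mul_eq, smul_mulVec, one_mulVec, dotProduct_smul, smul_eq_mul]

theorem dot_B_A (hA : IsGoodLattice p A B) (x y : Fin 4 → ℤ) :
    x ⬝ᵥ B.mulVec (A.mulVec y) = (p : ℤ) * (x ⬝ᵥ y) := by
  rw [mulVec_mulVec, B_mul_A hA, smul_mulVec, one_mulVec, dotProduct_smul, smul_eq_mul]

theorem qf_A_B (hA : IsGoodLattice p A B) (y : Fin 4 → ℤ) :
    qf A (B.mulVec y) = (p : ℤ) * qf B y := by
  rw [qf, dot_A_B hA, dotProduct_comm, qf]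

theorem qf_B_A (hA : IsGoodLattice p A B) (u : Fin 4 → ℤ) :
    qf B (A.mulVec u) = (p : ℤ) * qf A u := by
  rw [qf, dot_B_A hA, dotProduct_comm, qf]

/-- the exponent of the theta series with characteristic is `(px + By)ᵀ A (px + By) / p²`. -/
theorem expo_eq (hA : IsGoodLattice p A B) (y x : Fin 4 → ℤ) :
    (p : ℤ) * (p * (qf A x + 2 * (x ⬝ᵥ y)) + qf B y) = qf A ((p : ℤ) • x + B.mulVec y) := by
  rw [qf_add_of_symm hA.symm, qf_smul, qf_A_B hA, smul_dotProduct, dot_A_B hA, smul_eq_mul]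
  ring

theorem qf_B_add_mulVec (hA : IsGoodLattice p A B) (y u : Fin 4 → ℤ) :
    qf B (y + A.mulVec u) = qf B y + (p : ℤ) * (2 * (u ⬝ᵥ y) + qf A u) := by
  rw [qf_add_of_symm (isSymm_B hA), qf_B_A hA, dot_B_A hA, dotProduct_comm y u]
  ring

/-! ### evenness -/

theorem even_qf_of_symm {M : Matrix (Fin 4) (Fin 4) ℤ} (hM : M.IsSymm)
    (hd : ∀ i, Even (M i i)) (x : Fin 4 → ℤ) : Even (qf M x) := by
  obtain ⟨a0, h0⟩ := hd 0
  obtain ⟨a1, h1⟩ := hd 1
  obtain ⟨a2, h2⟩ := hd 2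
  obtain ⟨a3, h3⟩ := hd 3
  have s10 := hM.apply 0 1
  have s20 := hM.apply 0 2
  have s30 := hM.apply 0 3
  have s21 := hM.apply 1 2
  have s31 := hM.apply 1 3
  have s32 := hM.apply 2 3
  refine ⟨a0 * x 0 ^ 2 + a1 * x 1 ^ 2 + a2 * x 2 ^ 2 + a3 * x 3 ^ 2 +
    M 0 1 * x 0 * x 1 + M 0 2 * x 0 * x 2 + M 0 3 * x 0 * x 3 + M 1 2 * x 1 * x 2 +
    M 1 3 * x 1 * x 3 + M 2 3 * x 2 * x 3, ?_⟩
  simp only [qf, dotProduct, mulVec, Fin.sum_univ_four]
  rw [h0, h1, h2, h3, s10, s20, s30, s21, s31, s32]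
  ring

theorem even_qf_A (hA : IsGoodLattice p A B) (x : Fin 4 → ℤ) : Even (qf A x) :=
  even_qf_of_symm hA.symm hA.even x

theorem even_qf_B (hA : IsGoodLattice p A B) (x : Fin 4 → ℤ) : Even (qf B x) :=
  even_qf_of_symm (isSymm_B hA) hA.even' x

/-! ### positivity -/

theorem qf_cast (M : Matrix (Fin 4) (Fin 4) ℤ) (x : Fin 4 → ℤ) :
    ((qf M x : ℤ) : ℝ) =
      (fun i => (x i : ℝ)) ⬝ᵥ (M.map (Int.cast : ℤ → ℝ)).mulVec (fun i => (x i : ℝ)) := by
  simp [qf, dotProduct, mulVec]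

theorem qf_pos (hA : IsGoodLattice p A B) (x : Fin 4 → ℤ) (hx : x ≠ 0) : 0 < qf A x := by
  have hx' : (fun i => (x i : ℝ)) ≠ 0 := by
    intro h
    apply hx
    funext i
    have := congrFun h i
    simpa using this
  have := hA.posDef.dotProduct_mulVec_pos hx'
  rw [star_trivial, ← qf_cast] at this
  exact_mod_cast this

theorem qf_nonneg (hA : IsGoodLattice p A B) (x : Fin 4 → ℤ) : 0 ≤ qf A x := by
  by_cases hx : x = 0
  · subst hx
    simp [qf]
  · exact (qf_pos hA x hx).le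

theorem mulVec_injective (hA : IsGoodLattice p A B) : Function.Injective A.mulVec := by
  have hp : (p : ℤ) ≠ 0 := by exact_mod_cast (Fact.out : p.Prime).ne_zero
  intro x y h
  have h1 := congrArg B.mulVec h
  rw [mulVec_mulVec, mulVec_mulVec, B_mul_A hA, smul_mulVec, smul_mulVec,
    one_mulVec, one_mulVec] at h1
  funext i
  have := congrFun h1 i
  simp only [Pi.smul_apply, smul_eq_mul] at this
  exact mul_left_cancel₀ hp this

theorem mulVec_B_injective (hA : IsGoodLattice p A B) : Function.Injective B.mulVec := by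
  have hp : (p : ℤ) ≠ 0 := by exact_mod_cast (Fact.out : p.Prime).ne_zero
  intro x y h
  have h1 := congrArg A.mulVec h
  rw [mulVec_mulVec, mulVec_mulVec, hA.mul_eq, smul_mulVec, smul_mulVec,
    one_mulVec, one_mulVec] at h1
  funext i
  have := congrFun h1 i
  simp only [Pi.smul_apply, smul_eq_mul] at this
  exact mul_left_cancel₀ hp this

theorem qf_B_single (i : Fin 4) : qf B (Pi.single i 1) = B i i := by
  simp [qf, single_dotProduct]

theorem B_diag_pos (hA : IsGoodLattice p A B) (i : Fin 4) : 0 < B i i := by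
  have hp : (0 : ℤ) < p := by exact_mod_cast (Fact.out : p.Prime).pos
  have hne : B.mulVec (Pi.single i 1) ≠ 0 := by
    intro h
    have h0 : B.mulVec (Pi.single i 1) = B.mulVec 0 := by rw [h, mulVec_zero]
    have := mulVec_B_injective hA h0
    have h1 := congrFun this i
    simp at h1
  have h1 := qf_pos hA _ hne
  rw [qf_A_B hA, qf_B_single] at h1
  exact (pos_iff_pos_of_mul_pos h1).mp hp

/-- coercivity: `p xᵢ² ≤ Bᵢᵢ · xᵀAx`. -/
theorem coercive (hA : IsGoodLattice p A B) (x : Fin 4 → ℤ) (i : Fin 4) :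
    (p : ℤ) * x i ^ 2 ≤ B i i * qf A x := by
  have hB := B_diag_pos hA i
  have h1 := qf_nonneg hA (B i i • x + (-(x i)) • B.mulVec (Pi.single i 1))
  have h2 : qf A (B i i • x + (-(x i)) • B.mulVec (Pi.single i 1)) =
      B i i * (B i i * qf A x - (p : ℤ) * x i ^ 2) := by
    rw [qf_add_of_symm hA.symm, qf_smul, qf_smul, qf_A_B hA, qf_B_single, mulVec_smul,
      dotProduct_smul, smul_dotProduct, dot_A_B hA, dotProduct_single]
    simp only [smul_eq_mul]
    ring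
  rw [h2] at h1
  have h3 := nonneg_of_mul_nonneg_right h1 hB
  linarith

/-! ### the discriminant group -/

theorem mem_latA {A : Matrix (Fin 4) (Fin 4) ℤ} {y : Fin 4 → ℤ} :
    y ∈ latA A ↔ ∃ x, A.mulVec x = y := by
  simp [latA]

theorem toDisc_eq_iff {A : Matrix (Fin 4) (Fin 4) ℤ} {y r : Fin 4 → ℤ} :
    toDisc A y = toDisc A r ↔ ∃ x, y = r + A.mulVec x := by
  unfold toDisc
  rw [QuotientAddGroup.eq, mem_latA]
  constructor
  · rintro ⟨x, hx⟩
    refine ⟨-x, ?_⟩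
    rw [mulVec_neg, hx]; abel
  · rintro ⟨x, rfl⟩
    refine ⟨-x, ?_⟩
    rw [mulVec_neg]; abel

theorem smul_mem_latA (hA : IsGoodLattice p A B) (y : Fin 4 → ℤ) : (p : ℤ) • y ∈ latA A := by
  rw [mem_latA]
  refine ⟨B.mulVec y, ?_⟩
  rw [mulVec_mulVec, hA.mul_eq, smul_mulVec, one_mulVec]

theorem finite_disc (hA : IsGoodLattice p A B) : Finite (Disc A) := by
  have hp : (0 : ℤ) < p := by exact_mod_cast (Fact.out : p.Prime).pos
  have hp0 : p ≠ 0 := (Fact.out : p.Prime).ne_zero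
  have : NeZero p := ⟨hp0⟩
  let f : (Fin 4 → Fin p) → Disc A := fun g => toDisc A (fun i => ((g i : ℕ) : ℤ))
  refine Finite.of_surjective f ?_
  intro d
  obtain ⟨y, rfl⟩ := QuotientAddGroup.mk_surjective d
  have hlt : ∀ i, (y i % (p : ℤ)).toNat < p := by
    intro i
    have h1 := Int.emod_nonneg (y i) hp.ne'
    have h2 := Int.emod_lt_of_pos (y i) hp
    omega
  refine ⟨fun i => ⟨(y i % (p : ℤ)).toNat, hlt i⟩, ?_⟩
  show toDisc A _ = toDisc A y
  rw [toDisc_eq_iff]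
  obtain ⟨x, hx⟩ := mem_latA.mp (smul_mem_latA hA (fun i => -(y i / (p : ℤ))))
  refine ⟨x, ?_⟩
  rw [hx]
  funext i
  have h1 := Int.emod_nonneg (y i) hp.ne'
  have h3 := Int.mul_ediv_add_emod (y i) (p : ℤ)
  simp only [Pi.add_apply, Pi.smul_apply, smul_eq_mul, Int.toNat_of_nonneg h1]
  linarith

/-! ### the residues `qz`, `bz` -/

theorem bz_add_left (y y' w : Fin 4 → ℤ) :
    bz p B (y + y') w = bz p B y w + bz p B y' w := by
  simp only [bz, add_dotProduct]
  push_cast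
  rfl

theorem bz_comm (hA : IsGoodLattice p A B) (y w : Fin 4 → ℤ) : bz p B y w = bz p B w y := by
  unfold bz
  congr 1
  rw [dotProduct_mulVec, ← mulVec_transpose, (isSymm_B hA).eq, dotProduct_comm]

theorem bz_add_mulVec_left (hA : IsGoodLattice p A B) (y u w : Fin 4 → ℤ) :
    bz p B (y + A.mulVec u) w = bz p B y w := by
  rw [bz_add_left, bz_comm hA (A.mulVec u) w]
  unfold bz
  rw [dot_B_A hA]
  push_cast
  simp

theorem qz_add (hA : IsGoodLattice p A B) (y w : Fin 4 → ℤ) :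
    qz p B (y + w) = qz p B y + bz p B y w + qz p B w := by
  obtain ⟨a, ha⟩ := even_qf_B hA y
  obtain ⟨c, hc⟩ := even_qf_B hA w
  have h := qf_add_of_symm (isSymm_B hA) y w
  unfold qz bz
  have h1 : qf B (y + w) / 2 = qf B y / 2 + y ⬝ᵥ B.mulVec w + qf B w / 2 := by
    rw [h, ha, hc]
    omega
  rw [h1]
  push_cast
  rfl

theorem qz_nsmul (hA : IsGoodLattice p A B) (n : ℕ) (y : Fin 4 → ℤ) :
    qz p B (n • y) = (n : ZMod p) ^ 2 * qz p B y := by
  obtain ⟨a, ha⟩ := even_qf_B hA y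
  unfold qz
  have h0 : (n • y : Fin 4 → ℤ) = (n : ℤ) • y := by
    rw [natCast_zsmul]
  have h1 : qf B (n • y) / 2 = (n : ℤ) ^ 2 * (qf B y / 2) := by
    rw [h0, qf_smul, ha]
    have : a + a = 2 * a := by ring
    rw [this, ← mul_assoc, mul_comm ((n : ℤ) ^ 2) 2, mul_assoc,
      Int.mul_ediv_cancel_left _ (by norm_num), Int.mul_ediv_cancel_left _ (by norm_num)]
  rw [h1]
  push_cast
  rfl

theorem qz_add_mulVec (hA : IsGoodLattice p A B) (y u : Fin 4 → ℤ) :
    qz p B (y + A.mulVec u) = qz p B y := by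
  obtain ⟨a, ha⟩ := even_qf_B hA y
  obtain ⟨c, hc⟩ := even_qf_A hA u
  unfold qz
  have h1 : qf B (y + A.mulVec u) / 2 = qf B y / 2 + (p : ℤ) * (u ⬝ᵥ y + c) := by
    rw [qf_B_add_mulVec hA, ha, hc]
    have : a + a + (p : ℤ) * (2 * (u ⬝ᵥ y) + (c + c)) = 2 * (a + (p : ℤ) * (u ⬝ᵥ y + c)) := by
      ring
    rw [this, Int.mul_ediv_cancel_left _ (by norm_num)]
    have : a + a = 2 * a := by ring
    rw [this, Int.mul_ediv_cancel_left _ (by norm_num)]
  rw [h1]
  push_cast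
  simp

theorem bz_nondeg (hA : IsGoodLattice p A B) (w : Fin 4 → ℤ) (hw : w ∉ latA A) :
    ∃ y, bz p B y w ≠ 0 := by
  have hp : (p : ℤ) ≠ 0 := by exact_mod_cast (Fact.out : p.Prime).ne_zero
  by_contra hcon
  apply hw
  have hall : ∀ i, (p : ℤ) ∣ B.mulVec w i := by
    intro i
    have h1 : bz p B (Pi.single i 1) w = 0 := by
      by_contra h
      exact hcon ⟨_, h⟩
    unfold bz at h1
    rw [single_dotProduct, one_mul] at h1
    exact (ZMod.intCast_zmod_eq_zero_iff_dvd _ _).mp h1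
  choose v hv using hall
  rw [mem_latA]
  refine ⟨v, ?_⟩
  have h2 : B.mulVec w = (p : ℤ) • v := by
    funext i
    rw [hv i]
    rfl
  have h3 := congrArg A.mulVec h2
  rw [mulVec_mulVec, hA.mul_eq, smul_mulVec, one_mulVec, mulVec_smul] at h3
  funext i
  have := congrFun h3 i
  simp only [Pi.smul_apply, smul_eq_mul] at this
  exact (mul_left_cancel₀ hp this).symm

end Fermat.Agent.S16.H346
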