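import Fermat.Agent.S16.H346.ThAn

/-!
# S16 / WP TH-TR (helper346): the `T`- and `S`-transformation of the theta series with
characteristic

* `thetaChar_add_mulVec` : `Θ_{y + A u} = Θ_y`,
* `thetaChar_slash_T`    : `Θ_y ∣[2] T = ψ(q(y)) Θ_y`,
* `thetaChar_slash_S`    : `Θ_y ∣[2] S = -p⁻¹ ∑_{d ∈ ℤ⁴/Aℤ⁴} ψ(b(r_d, y)) Θ_{r_d}` from the inversion
  formula `ThetaInv`, by regrouping the dual sum over the cosets of `A ℤ⁴`.
-/

set_option autoImplicit false
set_option linter.unusedSectionVars false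

noncomputable section

namespace Fermat.Agent.S16.H346

open UpperHalfPlane ModularForm CongruenceSubgroup MatrixGroups ModularFormClass Matrix
open Fermat.Agent.S20 (MF SF)
open scoped Manifold

variable {p : ℕ} [Fact p.Prime] {A B : Matrix (Fin 4) (Fin 4) ℤ}

/-- the general term of `thetaChar`. -/
def term (p : ℕ) (A B : Matrix (Fin 4) (Fin 4) ℤ) (y : Fin 4 → ℤ) (z : ℂ) (x : Fin 4 → ℤ) : ℂ :=
  Complex.exp (Real.pi * Complex.I * z *
    ((qf A x : ℂ) + 2 * ((x ⬝ᵥ y : ℤ) : ℂ) + (qf B y : ℂ) / p))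

/-- the general term of the dual sum in the inversion formula. -/
def dualTerm (p : ℕ) (B : Matrix (Fin 4) (Fin 4) ℤ) (y : Fin 4 → ℤ) (z : ℂ) (w : Fin 4 → ℤ) : ℂ :=
  Complex.exp (Real.pi * Complex.I * z * ((qf B w : ℂ) / p) +
    2 * Real.pi * Complex.I * (((w ⬝ᵥ B.mulVec y : ℤ) : ℂ) / p))

theorem thetaChar_eq_tsum (y : Fin 4 → ℤ) (z : ℍ) :
    thetaChar p A B y z = ∑' x, term p A B y z x := rfl

theorem cexp_two_pi_I_int (m : ℤ) : Complex.exp (2 * Real.pi * Complex.I * (m : ℂ)) = 1 := by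
  have : (2 * Real.pi * Complex.I * (m : ℂ) : ℂ) = (m : ℂ) * (2 * Real.pi * Complex.I) := by ring
  rw [this]
  exact Complex.exp_int_mul_two_pi_mul_I m

theorem dot_mulVec_symm {M : Matrix (Fin 4) (Fin 4) ℤ} (hM : M.IsSymm) (x y : Fin 4 → ℤ) :
    M.mulVec x ⬝ᵥ y = x ⬝ᵥ M.mulVec y := by
  rw [dotProduct_comm, dotProduct_mulVec, ← mulVec_transpose, hM.eq, dotProduct_comm]

/-- the exponent identity behind the invariance under `y ↦ y + A u`. -/
theorem term_add_mulVec (hA : IsGoodLattice p A B) (y u : Fin 4 → ℤ) (z : ℂ) (x : Fin 4 → ℤ) :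
    term p A B (y + A.mulVec u) z x = term p A B y z (x + u) := by
  have hp : (p : ℂ) ≠ 0 := by exact_mod_cast (Fact.out : p.Prime).ne_zero
  unfold term
  congr 1
  have h1 := qf_B_add_mulVec hA y u
  have h2 := qf_add_of_symm hA.symm x u
  have h3 : x ⬝ᵥ (y + A.mulVec u) = x ⬝ᵥ y + x ⬝ᵥ A.mulVec u := dotProduct_add _ _ _
  have h4 : (x + u) ⬝ᵥ y = x ⬝ᵥ y + u ⬝ᵥ y := add_dotProduct _ _ _
  rw [h1, h2, h3, h4]
  push_cast
  field_simp
  ring

theorem thetaChar_add_mulVec (hA : IsGoodLattice p A B) (y u : Fin 4 → ℤ) :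
    thetaChar p A B (y + A.mulVec u) = thetaChar p A B y := by
  funext z
  rw [thetaChar_eq_tsum, thetaChar_eq_tsum, ← (Equiv.addRight u).tsum_eq (term p A B y z)]
  refine tsum_congr fun x => ?_
  rw [term_add_mulVec hA]
  rfl

/-! ### `T` -/

theorem slash_T_apply (f : ℍ → ℂ) (z : ℍ) :
    (f ∣[(2 : ℤ)] ModularGroup.T) z = f ((1 : ℝ) +ᵥ z) := by
  rw [SL_slash_apply, UpperHalfPlane.modular_T_smul]
  simp [denom, ModularGroup.coe_T]

theorem slash_S_apply (f : ℍ → ℂ) (z : ℍ) :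
    (f ∣[(2 : ℤ)] ModularGroup.S) z = f (ModularGroup.S • z) * (z : ℂ) ^ (-2 : ℤ) := by
  rw [SL_slash_apply]
  simp [denom, ModularGroup.coe_S]

/-- `exp(πi · yᵀBy / p) = ψ(q(y))`. -/
theorem cexp_qz (hA : IsGoodLattice p A B) (y : Fin 4 → ℤ) :
    Complex.exp (Real.pi * Complex.I * ((qf B y : ℂ) / p)) =
      (ZMod.stdAddChar (qz p B y) : ℂ) := by
  obtain ⟨a, ha⟩ := even_qf_B hA y
  unfold qz
  rw [ZMod.stdAddChar_coe]
  congr 1
  have h2 : qf B y / 2 = a := by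
    rw [ha]; omega
  rw [h2, ha]
  push_cast
  ring

/-- `exp(2πi · rᵀBy / p) = ψ(b(r, y))`. -/
theorem cexp_bz (r y : Fin 4 → ℤ) :
    Complex.exp (2 * Real.pi * Complex.I * (((r ⬝ᵥ B.mulVec y : ℤ) : ℂ) / p)) =
      (ZMod.stdAddChar (bz p B r y) : ℂ) := by
  unfold bz
  rw [ZMod.stdAddChar_coe]
  congr 1
  ring

theorem term_add_one (hA : IsGoodLattice p A B) (y : Fin 4 → ℤ) (z : ℂ) (x : Fin 4 → ℤ) :
    term p A B y (1 + z) x = (ZMod.stdAddChar (qz p B y) : ℂ) * term p A B y z x := by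
  obtain ⟨a, ha⟩ := even_qf_A hA x
  rw [← cexp_qz hA, term, term, ← Complex.exp_add]
  have h1 : Real.pi * Complex.I * (1 + z) *
      ((qf A x : ℂ) + 2 * ((x ⬝ᵥ y : ℤ) : ℂ) + (qf B y : ℂ) / p) =
      (Real.pi * Complex.I * ((qf B y : ℂ) / p) + Real.pi * Complex.I * z *
        ((qf A x : ℂ) + 2 * ((x ⬝ᵥ y : ℤ) : ℂ) + (qf B y : ℂ) / p)) +
      2 * Real.pi * Complex.I * ((a + x ⬝ᵥ y : ℤ) : ℂ) := by
    rw [ha]
    push_cast
    ring
  rw [h1, Complex.exp_add, cexp_two_pi_I_int, mul_one]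

theorem thetaChar_slash_T (hA : IsGoodLattice p A B) (y : Fin 4 → ℤ) :
    thetaChar p A B y ∣[(2 : ℤ)] ModularGroup.T =
      (ZMod.stdAddChar (qz p B y) : ℂ) • thetaChar p A B y := by
  funext z
  rw [slash_T_apply, Pi.smul_apply, smul_eq_mul, thetaChar_eq_tsum, thetaChar_eq_tsum,
    ← tsum_mul_left]
  refine tsum_congr fun x => ?_
  rw [UpperHalfPlane.coe_vadd, ← term_add_one hA]
  simp

/-! ### `S` -/

/-- the dual term on a coset `r + A ℤ⁴`. -/
theorem dualTerm_coset (hA : IsGoodLattice p A B) (y r : Fin 4 → ℤ) (z : ℂ) (x : Fin 4 → ℤ) :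
    dualTerm p B y z (r + A.mulVec x) =
      (ZMod.stdAddChar (bz p B r y) : ℂ) * term p A B r z x := by
  have hp : (p : ℂ) ≠ 0 := by exact_mod_cast (Fact.out : p.Prime).ne_zero
  rw [← cexp_bz, dualTerm, term, ← Complex.exp_add]
  have h1 := qf_B_add_mulVec hA r x
  have h2 : (r + A.mulVec x) ⬝ᵥ B.mulVec y = r ⬝ᵥ B.mulVec y + (p : ℤ) * (x ⬝ᵥ y) := by
    rw [add_dotProduct, dot_mulVec_symm hA.symm, dot_A_B hA]
  have h3 : Real.pi * Complex.I * z * ((qf B (r + A.mulVec x) : ℂ) / p) +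
      2 * Real.pi * Complex.I * ((((r + A.mulVec x) ⬝ᵥ B.mulVec y : ℤ) : ℂ) / p) =
      (2 * Real.pi * Complex.I * (((r ⬝ᵥ B.mulVec y : ℤ) : ℂ) / p) +
        Real.pi * Complex.I * z *
          ((qf A x : ℂ) + 2 * ((x ⬝ᵥ r : ℤ) : ℂ) + (qf B r : ℂ) / p)) +
      2 * Real.pi * Complex.I * ((x ⬝ᵥ y : ℤ) : ℂ) := by
    rw [h1, h2]
    push_cast
    field_simp
    ring
  rw [h3, Complex.exp_add, cexp_two_pi_I_int, mul_one]

/-- the bijection `x ↦ r + A x` from `ℤ⁴` onto the fibre of `toDisc` over the class of `r`. -/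
def fibreEquiv (hA : IsGoodLattice p A B) (r : Fin 4 → ℤ) :
    (Fin 4 → ℤ) ≃ ↥(toDisc A ⁻¹' {toDisc A r}) :=
  Equiv.ofBijective (fun x => ⟨r + A.mulVec x, toDisc_eq_iff.mpr ⟨x, rfl⟩⟩) <| by
    constructor
    · intro x x' h
      have h1 : r + A.mulVec x = r + A.mulVec x' := congrArg Subtype.val h
      exact mulVec_injective hA (add_left_cancel h1)
    · rintro ⟨w, hw⟩
      obtain ⟨x, hx⟩ := toDisc_eq_iff.mp (by simpa using hw)
      exact ⟨x, Subtype.ext hx.symm⟩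

/-- sum over the fibre of `toDisc` over `d`, for any representative `r` of `d`. -/
theorem tsum_fibre (hA : IsGoodLattice p A B) (F : (Fin 4 → ℤ) → ℂ) {r : Fin 4 → ℤ}
    {d : Disc A} (hr : toDisc A r = d) :
    ∑' w : ↥(toDisc A ⁻¹' {d}), F w = ∑' x : Fin 4 → ℤ, F (r + A.mulVec x) := by
  subst hr
  rw [← (fibreEquiv hA r).tsum_eq]
  rfl

/-- the dual sum, regrouped over the discriminant group. -/
theorem tsum_dual (hA : IsGoodLattice p A B) [Fintype (Disc A)]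
    (r : Disc A → (Fin 4 → ℤ)) (hr : ∀ d, toDisc A (r d) = d) (y : Fin 4 → ℤ) (z : ℍ) :
    ∑' w : Fin 4 → ℤ, dualTerm p B y z w =
      ∑ d : Disc A, (ZMod.stdAddChar (bz p B (r d) y) : ℂ) * thetaChar p A B (r d) z := by
  have hs : Summable (fun w : Fin 4 → ℤ => dualTerm p B y z w) := summable_dual hA y z
  have h1 := hs.hasSum.tsum_fiberwise (toDisc A)
  have h2 := h1.unique (hasSum_fintype _)
  rw [h2]
  refine Finset.sum_congr rfl fun d _ => ?_
  rw [tsum_fibre hA _ (hr d), thetaChar_eq_tsum, ← tsum_mul_left]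
  refine tsum_congr fun x => ?_
  exact dualTerm_coset hA y (r d) z x

/-- the `S`-transformation, regrouped over the discriminant group (any finite system of
representatives `r`). -/
theorem thetaChar_slash_S (hA : IsGoodLattice p A B) (hinv : ThetaInv p A B)
    [Fintype (Disc A)] (r : Disc A → (Fin 4 → ℤ)) (hr : ∀ d, toDisc A (r d) = d)
    (y : Fin 4 → ℤ) :
    thetaChar p A B y ∣[(2 : ℤ)] ModularGroup.S =
      (-(p : ℂ)⁻¹) • ∑ d : Disc A, (ZMod.stdAddChar (bz p B (r d) y) : ℂ) • thetaChar p A B (r d) := by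
  have hp : (p : ℂ) ≠ 0 := by exact_mod_cast (Fact.out : p.Prime).ne_zero
  funext z
  have hz : (z : ℂ) ≠ 0 := UpperHalfPlane.ne_zero z
  rw [slash_S_apply, hinv y z]
  have h1 : ∑' w : Fin 4 → ℤ,
      Complex.exp (Real.pi * Complex.I * z * ((qf B w : ℂ) / p) +
        2 * Real.pi * Complex.I * (((w ⬝ᵥ B.mulVec y : ℤ) : ℂ) / p)) =
      ∑' w : Fin 4 → ℤ, dualTerm p B y z w := rfl
  rw [h1, tsum_dual hA r hr y z]
  simp only [Pi.smul_apply, Finset.sum_apply, smul_eq_mul]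
  have h2 : -(z : ℂ) ^ 2 / p * (z : ℂ) ^ (-2 : ℤ) = -(p : ℂ)⁻¹ := by
    rw [_root_.zpow_neg]
    field_simp
  rw [mul_right_comm, h2]

end Fermat.Agent.S16.H346
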