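import Fermat.Agent.S16.H346.ThAbs
import Fermat.Agent.S16.H346.ThTr

/-!
# S16 / WP TH (helper346): `theta_mem_MF`

For a good lattice `(A, B)` of level `p` satisfying the theta inversion formula, the theta series
`θ_A` is a modular form of weight 2 on `Γ₀(p)` (function level, `Fermat.Agent.S20.MF`).

This is the EXACT statement `Skel.theta_mem_MF` of the S16 skeleton (with the verbatim copies
`H346.IsGoodLattice`, `H346.thetaChar`, `H346.qf`, `H346.thetaFun` of the skeleton definitions).
-/

set_option autoImplicit false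
set_option linter.unusedSectionVars false

noncomputable section

namespace Fermat.Agent.S16.H346

open UpperHalfPlane ModularForm CongruenceSubgroup MatrixGroups ModularFormClass Matrix
open Fermat.Agent.S20 (MF SF)
open scoped Manifold

variable {p : ℕ} [Fact p.Prime] {A B : Matrix (Fin 4) (Fin 4) ℤ}

theorem toDisc_out (A : Matrix (Fin 4) (Fin 4) ℤ) (d : Disc A) : toDisc A d.out = d :=
  QuotientAddGroup.out_eq' d

/-- two representatives of the same class differ by an element of `A ℤ⁴`. -/
theorem exists_out_eq (A : Matrix (Fin 4) (Fin 4) ℤ) (y : Fin 4 → ℤ) :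
    ∃ u, (toDisc A y).out = y + A.mulVec u :=
  toDisc_eq_iff.mp (toDisc_out A _)

theorem exists_out_add (A : Matrix (Fin 4) (Fin 4) ℤ) (d r : Disc A) :
    ∃ u, (d + r).out = d.out + r.out + A.mulVec u := by
  have h : d + r = toDisc A (d.out + r.out) := by
    conv_lhs => rw [← toDisc_out A d, ← toDisc_out A r]
    rfl
  rw [h]
  exact exists_out_eq A _

theorem exists_out_nsmul (A : Matrix (Fin 4) (Fin 4) ℤ) (n : ℕ) (d : Disc A) :
    ∃ u, (n • d).out = n • d.out + A.mulVec u := by
  have h : n • d = toDisc A (n • d.out) := by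
    conv_lhs => rw [← toDisc_out A d]
    rfl
  rw [h]
  exact exists_out_eq A _

theorem bz_add_mulVec_right (hA : IsGoodLattice p A B) (y w u : Fin 4 → ℤ) :
    bz p B y (w + A.mulVec u) = bz p B y w := by
  rw [bz_comm hA, bz_add_mulVec_left hA, bz_comm hA]

/-- The Weil datum of a good lattice. -/
def weilData (hA : IsGoodLattice p A B) (hinv : ThetaInv p A B) [Fintype (Disc A)] :
    WeilData p (Disc A) where
  q d := qz p B d.out
  b d r := bz p B d.out r.out
  Θ d := thetaChar p A B d.out
  q_add d r := by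
    obtain ⟨u, hu⟩ := exists_out_add A d r
    rw [hu, qz_add_mulVec hA, qz_add hA]
  q_nsmul n d := by
    obtain ⟨u, hu⟩ := exists_out_nsmul A n d
    rw [hu, qz_add_mulVec hA, qz_nsmul hA]
  b_add_left d d' r := by
    obtain ⟨u, hu⟩ := exists_out_add A d d'
    rw [hu, bz_add_mulVec_left hA, bz_add_left]
  b_comm d r := bz_comm hA _ _
  nondeg r hr := by
    have hr' : r.out ∉ latA A := by
      intro h
      apply hr
      rw [← toDisc_out A r]
      exact (QuotientAddGroup.eq_zero_iff _).mpr h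
    obtain ⟨y, hy⟩ := bz_nondeg hA r.out hr'
    refine ⟨toDisc A y, ?_⟩
    obtain ⟨u, hu⟩ := exists_out_eq A y
    rwa [hu, bz_add_mulVec_left hA]
  slash_T d := thetaChar_slash_T hA d.out
  slash_S d := thetaChar_slash_S hA hinv (fun d => d.out) (toDisc_out A) d.out
  ne_zero := by
    obtain ⟨u, hu⟩ := exists_out_eq A (0 : Fin 4 → ℤ)
    have h0 : toDisc A 0 = (0 : Disc A) := rfl
    rw [h0] at hu
    rw [hu, thetaChar_add_mulVec hA, thetaChar_zero]
    exact thetaFun_ne_zero hA

theorem weilData_Θ_zero (hA : IsGoodLattice p A B) (hinv : ThetaInv p A B) [Fintype (Disc A)] :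
    (weilData hA hinv).Θ 0 = thetaFun A := by
  obtain ⟨u, hu⟩ := exists_out_eq A (0 : Fin 4 → ℤ)
  have h0 : toDisc A 0 = (0 : Disc A) := rfl
  rw [h0] at hu
  show thetaChar p A B (0 : Disc A).out = thetaFun A
  rw [hu, thetaChar_add_mulVec hA, thetaChar_zero]

theorem isBoundedAtImInfty_sum {ι : Type} (s : Finset ι) (c : ι → ℂ) (f : ι → ℍ → ℂ)
    (hf : ∀ i, IsBoundedAtImInfty (f i)) : IsBoundedAtImInfty (∑ i ∈ s, c i • f i) := by
  classical
  induction s using Finset.induction_on with
  | empty =>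
    simpa using (zero_form_isBoundedAtImInfty : IsBoundedAtImInfty (0 : ℍ → ℂ))
  | insert a s ha ih =>
    rw [Finset.sum_insert ha]
    exact ((hf a).const_smul_left (c a)).add ih

/-- **WP TH (main)**: from inversion to modularity on `Γ₀(p)`. -/
theorem theta_mem_MF (p : ℕ) [Fact p.Prime] (A B : Matrix (Fin 4) (Fin 4) ℤ)
    (hA : IsGoodLattice p A B)
    (hinv : ∀ (y : Fin 4 → ℤ) (z : ℍ), thetaChar p A B y (ModularGroup.S • z) =
      -(z : ℂ) ^ 2 / p * ∑' w : Fin 4 → ℤ,
        Complex.exp (Real.pi * Complex.I * z * ((qf B w : ℂ) / p) +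
          2 * Real.pi * Complex.I * (((w ⬝ᵥ B.mulVec y : ℤ) : ℂ) / p))) :
    thetaFun A ∈ MF (Gamma0 p) 2 := by
  have : Finite (Disc A) := finite_disc hA
  let _ : Fintype (Disc A) := Fintype.ofFinite _
  have hinv' : ThetaInv p A B := hinv
  have h0 := weilData_Θ_zero hA hinv'
  refine ⟨?_, ?_, ?_⟩
  · rw [← thetaChar_zero (p := p) A B]
    exact mdiff_thetaChar hA 0
  · intro γ hγ
    have := ((weilData hA hinv').main γ).1 (Gamma0_mem.mp hγ)
    rwa [h0] at this
  · intro γ
    obtain ⟨c, hc⟩ := ((weilData hA hinv').main γ).2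
    rw [h0] at hc
    rw [hc]
    exact isBoundedAtImInfty_sum _ _ _ (fun d => bounded_thetaChar hA d.out)

end Fermat.Agent.S16.H346
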