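/-
S16 / WP TH, sub-package QE: the `q`-expansion of the theta series of a good lattice, and the
lower bound.

The namespace `Fermat.Agent.S16.H346.QE` part is helper778's file `H778/ThQE.lean`
(origin/helper778 @6dd9f1a4, hypothesis-parametrised in the Gaussian summability), re-namespaced so
that it can be used on main; the skeleton-shaped statements `qCoeff_theta`,
`analyticAt_cuspFunction_theta`, `lowerBound_of` (namespace `Fermat.Agent.S16.H346`) are obtained by
feeding in `summable_gauss` (H346/ThAn.lean) and `theta_mem_MF` (H346/ThMain.lean).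

Main results of the QE part:

* `hasSum_theta` : `θ_A(τ) = ∑_k r_A(k) q^k`, `r_A(k) = #{x : xᵀAx = 2k}`;
* `analyticAt_cuspFunction_theta_of` : the cusp function of `θ_A` is analytic at `0`;
* `qCoeff_theta_of` : `a_0(θ_A) = 1` and `a_k(θ_A) ∈ 2ℤ` for `k ≥ 1`.
-/
import Fermat.Agent.S16.H346.ThMain

set_option autoImplicit false

noncomputable section

namespace Fermat.Agent.S16.H346.QE

open UpperHalfPlane ModularFormClass Matrix Function
open Fermat.Agent.S16.H346
open scoped Manifold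

variable {A : Matrix (Fin 4) (Fin 4) ℤ}

/-! ### Lattice facts -/

lemma qf_expand (A : Matrix (Fin 4) (Fin 4) ℤ) (x : Fin 4 → ℤ) :
    qf A x = ∑ i, ∑ j, x i * A i j * x j := by
  unfold qf
  simp only [dotProduct, mulVec, Finset.mul_sum, mul_assoc]

lemma qf_even (hsymm : A.IsSymm) (heven : ∀ i, Even (A i i)) (x : Fin 4 → ℤ) :
    Even (qf A x) := by
  obtain ⟨a0, h0⟩ := heven 0
  obtain ⟨a1, h1⟩ := heven 1
  obtain ⟨a2, h2⟩ := heven 2
  obtain ⟨a3, h3⟩ := heven 3
  have s10 : A 1 0 = A 0 1 := hsymm.apply 0 1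
  have s20 : A 2 0 = A 0 2 := hsymm.apply 0 2
  have s30 : A 3 0 = A 0 3 := hsymm.apply 0 3
  have s21 : A 2 1 = A 1 2 := hsymm.apply 1 2
  have s31 : A 3 1 = A 1 3 := hsymm.apply 1 3
  have s32 : A 3 2 = A 2 3 := hsymm.apply 2 3
  refine ⟨a0 * x 0 ^ 2 + a1 * x 1 ^ 2 + a2 * x 2 ^ 2 + a3 * x 3 ^ 2 + A 0 1 * x 0 * x 1 +
    A 0 2 * x 0 * x 2 + A 0 3 * x 0 * x 3 + A 1 2 * x 1 * x 2 + A 1 3 * x 1 * x 3 +
    A 2 3 * x 2 * x 3, ?_⟩
  rw [qf_expand]
  simp only [Fin.sum_univ_four, h0, h1, h2, h3, s10, s20, s30, s21, s31, s32]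
  ring

lemma qf_neg (A : Matrix (Fin 4) (Fin 4) ℤ) (x : Fin 4 → ℤ) : qf A (-x) = qf A x := by
  unfold qf
  rw [mulVec_neg, neg_dotProduct_neg]

lemma qf_zero (A : Matrix (Fin 4) (Fin 4) ℤ) : qf A 0 = 0 := by
  unfold qf
  rw [zero_dotProduct]

lemma qf_cast (A : Matrix (Fin 4) (Fin 4) ℤ) (x : Fin 4 → ℤ) :
    ((qf A x : ℤ) : ℝ) =
      star (fun i => (x i : ℝ)) ⬝ᵥ (A.map (Int.cast : ℤ → ℝ)).mulVec (fun i => (x i : ℝ)) := by
  rw [qf_expand]
  simp only [dotProduct, mulVec, Matrix.map_apply, Pi.star_apply, star_trivial, Finset.mul_sum,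
    mul_assoc]
  push_cast
  rfl

lemma qf_pos (hpd : (A.map (Int.cast : ℤ → ℝ)).PosDef) (x : Fin 4 → ℤ) (hx : x ≠ 0) :
    0 < qf A x := by
  have hx' : (fun i => (x i : ℝ)) ≠ 0 := by
    intro h
    apply hx
    funext i
    have := congrFun h i
    simpa using this
  have := hpd.dotProduct_mulVec_pos hx'
  rw [← qf_cast] at this
  exact_mod_cast this

lemma qf_nonneg (hpd : (A.map (Int.cast : ℤ → ℝ)).PosDef) (x : Fin 4 → ℤ) : 0 ≤ qf A x := by
  rcases eq_or_ne x 0 with rfl | hx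
  · rw [qf_zero]
  · exact (qf_pos hpd x hx).le

/-- `xᵀAx / 2` as a natural number. -/
def halfNorm (A : Matrix (Fin 4) (Fin 4) ℤ) (x : Fin 4 → ℤ) : ℕ := (qf A x / 2).toNat

lemma two_mul_halfNorm (hsymm : A.IsSymm) (heven : ∀ i, Even (A i i))
    (hpd : (A.map (Int.cast : ℤ → ℝ)).PosDef) (x : Fin 4 → ℤ) :
    (2 * (halfNorm A x : ℤ)) = qf A x := by
  obtain ⟨m, hm⟩ := qf_even hsymm heven x
  have h0 := qf_nonneg hpd x
  unfold halfNorm
  omega

lemma halfNorm_neg (A : Matrix (Fin 4) (Fin 4) ℤ) (x : Fin 4 → ℤ) :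
    halfNorm A (-x) = halfNorm A x := by
  unfold halfNorm
  rw [qf_neg]

lemma halfNorm_eq_zero_iff (hsymm : A.IsSymm) (heven : ∀ i, Even (A i i))
    (hpd : (A.map (Int.cast : ℤ → ℝ)).PosDef) (x : Fin 4 → ℤ) :
    halfNorm A x = 0 ↔ x = 0 := by
  constructor
  · intro h
    by_contra hx
    have h1 := qf_pos hpd x hx
    have h2 := two_mul_halfNorm hsymm heven hpd x
    rw [h] at h2
    simp at h2
    omega
  · rintro rfl
    unfold halfNorm
    rw [qf_zero]
    rfl

/-- The representation numbers `r_A(k) = #{x : xᵀAx = 2k}`. -/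
def repNum (A : Matrix (Fin 4) (Fin 4) ℤ) (k : ℕ) : ℕ := Nat.card ↥(halfNorm A ⁻¹' {k})

lemma repNum_zero (hsymm : A.IsSymm) (heven : ∀ i, Even (A i i))
    (hpd : (A.map (Int.cast : ℤ → ℝ)).PosDef) : repNum A 0 = 1 := by
  unfold repNum
  have : halfNorm A ⁻¹' {0} = {0} := by
    ext x
    simp only [Set.mem_preimage, Set.mem_singleton_iff]
    exact halfNorm_eq_zero_iff hsymm heven hpd x
  rw [this]
  simp

lemma even_repNum (hsymm : A.IsSymm) (heven : ∀ i, Even (A i i))
    (hpd : (A.map (Int.cast : ℤ → ℝ)).PosDef) (k : ℕ) (hk : 1 ≤ k) : Even (repNum A k) := by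
  classical
  unfold repNum
  rcases (halfNorm A ⁻¹' {k}).finite_or_infinite with hfin | hinf
  · rw [Nat.card_coe_set_eq, Set.ncard_eq_toFinset_card _ hfin]
    set s := hfin.toFinset with hs
    have hmem : ∀ x, x ∈ s ↔ halfNorm A x = k := by
      intro x
      simp [hs]
    have key : ∑ x ∈ s, (1 : ZMod 2) = 0 := by
      refine Finset.sum_involution (fun x _ => -x) ?_ ?_ ?_ ?_
      · intro x _
        decide
      · intro x hx _ hneg
        have hx0 : x ≠ 0 := by
          rintro rfl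
          have h1 := (hmem 0).mp hx
          rw [(halfNorm_eq_zero_iff hsymm heven hpd 0).mpr rfl] at h1
          omega
        apply hx0
        funext i
        have := congrFun hneg i
        simp only [Pi.neg_apply, Pi.zero_apply] at this ⊢
        omega
      · intro x hx
        rw [hmem, halfNorm_neg]
        exact (hmem x).mp hx
      · intro x _
        exact neg_neg x
    rw [Finset.sum_const, nsmul_eq_mul, mul_one, ZMod.natCast_eq_zero_iff] at key
    exact even_iff_two_dvd.mpr key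
  · have : Infinite ↥(halfNorm A ⁻¹' {k}) := hinf.to_subtype
    rw [Nat.card_eq_zero_of_infinite]
    exact ⟨0, rfl⟩

/-! ### The `q`-expansion -/

lemma term_eq_pow (hsymm : A.IsSymm) (heven : ∀ i, Even (A i i))
    (hpd : (A.map (Int.cast : ℤ → ℝ)).PosDef) (x : Fin 4 → ℤ) (z : ℂ) :
    Complex.exp (Real.pi * Complex.I * z * (qf A x : ℂ)) =
      Periodic.qParam 1 z ^ halfNorm A x := by
  have h := two_mul_halfNorm hsymm heven hpd x
  have h' : (qf A x : ℂ) = 2 * (halfNorm A x : ℂ) := by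
    rw [← h]; push_cast; rfl
  rw [h', Periodic.qParam, ← Complex.exp_nat_mul]
  congr 1
  push_cast
  ring

lemma norm_term (x : Fin 4 → ℤ) (z : ℂ) :
    ‖Complex.exp (Real.pi * Complex.I * z * (qf A x : ℂ))‖ =
      Real.exp (-(Real.pi * z.im) * (qf A x : ℝ)) := by
  rw [Complex.norm_exp]
  congr 1
  have : (Real.pi * Complex.I * z * (qf A x : ℂ)) =
      ((Real.pi * (qf A x : ℝ) : ℝ) : ℂ) * (Complex.I * z) := by
    push_cast; ring
  rw [this, Complex.re_ofReal_mul]
  simp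
  ring

lemma summable_term (hsum : ∀ t : ℝ, 0 < t →
      Summable (fun v : Fin 4 → ℤ => Real.exp (-t * (qf A v : ℝ)))) (z : ℂ) (hz : 0 < z.im) :
    Summable (fun x : Fin 4 → ℤ => Complex.exp (Real.pi * Complex.I * z * (qf A x : ℂ))) := by
  apply Summable.of_norm
  simp only [norm_term]
  exact hsum _ (mul_pos Real.pi_pos hz)

/-- `θ_A(τ) = ∑_k r_A(k) q^k`. -/
theorem hasSum_theta (hsymm : A.IsSymm) (heven : ∀ i, Even (A i i))
    (hpd : (A.map (Int.cast : ℤ → ℝ)).PosDef)
    (hsum : ∀ t : ℝ, 0 < t → Summable (fun v : Fin 4 → ℤ => Real.exp (-t * (qf A v : ℝ))))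
    (τ : ℍ) :
    HasSum (fun k : ℕ => (repNum A k : ℂ) • Periodic.qParam 1 (τ : ℂ) ^ k) (thetaFun A τ) := by
  have h1 : HasSum (fun x : Fin 4 → ℤ => Periodic.qParam 1 (τ : ℂ) ^ halfNorm A x)
      (thetaFun A τ) := by
    have := (summable_term hsum (τ : ℂ) τ.im_pos).hasSum
    simp only [term_eq_pow hsymm heven hpd] at this
    convert this using 1
    unfold thetaFun
    exact tsum_congr fun x => term_eq_pow hsymm heven hpd x _
  have h2 := h1.tsum_fiberwise (halfNorm A)
  have h3 : (fun k : ℕ => (repNum A k : ℂ) • Periodic.qParam 1 (τ : ℂ) ^ k) =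
      fun c => ∑' (b : ↥(halfNorm A ⁻¹' {c})),
        Periodic.qParam 1 (τ : ℂ) ^ halfNorm A (b : Fin 4 → ℤ) := by
    funext k
    have : ∀ b : ↥(halfNorm A ⁻¹' {k}),
        Periodic.qParam 1 (τ : ℂ) ^ halfNorm A (b : Fin 4 → ℤ) =
          Periodic.qParam 1 (τ : ℂ) ^ k := by
      intro b
      rw [show halfNorm A (b : Fin 4 → ℤ) = k from b.2]
    rw [tsum_congr this, tsum_const, repNum, nsmul_eq_mul, smul_eq_mul]
  rw [h3]
  exact h2

/-! ### Analytic properties of `θ_A` -/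

lemma periodic_theta (hsymm : A.IsSymm) (heven : ∀ i, Even (A i i))
    (hpd : (A.map (Int.cast : ℤ → ℝ)).PosDef) :
    Periodic (thetaFun A ∘ ofComplex) ((1 : ℝ) : ℂ) := by
  intro w
  by_cases hw : 0 < w.im
  · have hw1 : 0 < (w + ((1 : ℝ) : ℂ)).im := by simpa using hw
    simp only [Function.comp_apply, ofComplex_apply_of_im_pos hw1, ofComplex_apply_of_im_pos hw]
    unfold thetaFun
    refine tsum_congr fun x => ?_
    have h := two_mul_halfNorm hsymm heven hpd x
    have h' : (qf A x : ℂ) = 2 * (halfNorm A x : ℂ) := by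
      rw [← h]; push_cast; rfl
    show Complex.exp (Real.pi * Complex.I * (w + ((1 : ℝ) : ℂ)) * (qf A x : ℂ)) =
      Complex.exp (Real.pi * Complex.I * w * (qf A x : ℂ))
    have e : Real.pi * Complex.I * (w + ((1 : ℝ) : ℂ)) * (qf A x : ℂ) =
        Real.pi * Complex.I * w * (qf A x : ℂ) +
          (halfNorm A x : ℂ) * (2 * Real.pi * Complex.I) := by
      rw [h']; push_cast; ring
    rw [e, Complex.exp_add, Complex.exp_nat_mul_two_pi_mul_I, mul_one]
  · have hw' : w.im ≤ 0 := not_lt.mp hw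
    have hw1 : (w + ((1 : ℝ) : ℂ)).im ≤ 0 := by simpa using hw'
    simp only [Function.comp_apply, ofComplex_apply_of_im_nonpos hw1, ofComplex_apply_of_im_nonpos hw']

lemma mdiff_theta (hpd : (A.map (Int.cast : ℤ → ℝ)).PosDef)
    (hsum : ∀ t : ℝ, 0 < t → Summable (fun v : Fin 4 → ℤ => Real.exp (-t * (qf A v : ℝ)))) :
    MDiff (thetaFun A) := by
  rw [UpperHalfPlane.mdifferentiable_iff]
  intro z hz
  have hz0 : 0 < z.im := hz
  apply DifferentiableAt.differentiableWithinAt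
  have hopen : IsOpen {w : ℂ | z.im / 2 < w.im} :=
    isOpen_lt continuous_const Complex.continuous_im
  have hzmem : z ∈ {w : ℂ | z.im / 2 < w.im} := half_lt_self hz0
  have hd : DifferentiableOn ℂ
      (fun w : ℂ => ∑' x : Fin 4 → ℤ, Complex.exp (Real.pi * Complex.I * w * (qf A x : ℂ)))
      {w : ℂ | z.im / 2 < w.im} := by
    refine Complex.differentiableOn_tsum_of_summable_norm
      (u := fun x : Fin 4 → ℤ => Real.exp (-(Real.pi * (z.im / 2)) * (qf A x : ℝ)))
      (hsum _ (mul_pos Real.pi_pos (half_pos hz0))) (fun x => ?_) hopen (fun x w hw => ?_)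
    · exact (Complex.differentiable_exp.comp
        ((differentiable_id.const_mul _).mul_const _)).differentiableOn
    · rw [norm_term, Real.exp_le_exp]
      have hq : (0 : ℝ) ≤ (qf A x : ℝ) := by exact_mod_cast qf_nonneg hpd x
      have hw' : z.im / 2 < w.im := hw
      have : Real.pi * (z.im / 2) ≤ Real.pi * w.im :=
        mul_le_mul_of_nonneg_left hw'.le Real.pi_pos.le
      nlinarith
  refine ((hd z hzmem).differentiableAt (hopen.mem_nhds hzmem)).congr_of_eventuallyEq ?_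
  filter_upwards [hopen.mem_nhds hzmem] with w hw
  have hw0 : 0 < w.im := lt_trans (half_pos hz0) hw
  simp only [Function.comp_apply, ofComplex_apply_of_im_pos hw0, thetaFun]

lemma bounded_theta (hsymm : A.IsSymm) (heven : ∀ i, Even (A i i))
    (hpd : (A.map (Int.cast : ℤ → ℝ)).PosDef)
    (hsum : ∀ t : ℝ, 0 < t → Summable (fun v : Fin 4 → ℤ => Real.exp (-t * (qf A v : ℝ)))) :
    IsBoundedAtImInfty (thetaFun A) :=
  isBoundedAtImInfty_of_hasSum_qExpansion (h := 1) one_pos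
    (hasSum_theta hsymm heven hpd hsum)

/-- The cusp function of `θ_A` is analytic at `0`. -/
theorem analyticAt_cuspFunction_theta_of (hsymm : A.IsSymm) (heven : ∀ i, Even (A i i))
    (hpd : (A.map (Int.cast : ℤ → ℝ)).PosDef)
    (hsum : ∀ t : ℝ, 0 < t → Summable (fun v : Fin 4 → ℤ => Real.exp (-t * (qf A v : ℝ)))) :
    AnalyticAt ℂ (cuspFunction 1 (thetaFun A)) 0 :=
  analyticAt_cuspFunction_zero one_pos (periodic_theta hsymm heven hpd) (mdiff_theta hpd hsum)
    (bounded_theta hsymm heven hpd hsum)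

/-- The `q`-expansion coefficients of `θ_A` are the representation numbers. -/
theorem qCoeff_theta_eq (hsymm : A.IsSymm) (heven : ∀ i, Even (A i i))
    (hpd : (A.map (Int.cast : ℤ → ℝ)).PosDef)
    (hsum : ∀ t : ℝ, 0 < t → Summable (fun v : Fin 4 → ℤ => Real.exp (-t * (qf A v : ℝ))))
    (k : ℕ) : qCoeff (thetaFun A) k = (repNum A k : ℂ) := by
  let _inst : FunLike (ℍ → ℂ) ℍ ℂ := ⟨fun f => f, fun _ _ h => h⟩
  have h := UpperHalfPlane.qExpansion_coeff_unique (F := ℍ → ℂ) (thetaFun A)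
    (c := fun k => (repNum A k : ℂ)) (h := 1) one_pos
    (analyticAt_cuspFunction_theta_of hsymm heven hpd hsum)
    (hasSum_theta hsymm heven hpd hsum) k
  exact h.symm

/-- `a_0(θ_A) = 1` and `a_k(θ_A)` is even for `k ≥ 1` (hypothesis-parametrised form of the
skeleton statement `qCoeff_theta`). -/
theorem qCoeff_theta_of (hsymm : A.IsSymm) (heven : ∀ i, Even (A i i))
    (hpd : (A.map (Int.cast : ℤ → ℝ)).PosDef)
    (hsum : ∀ t : ℝ, 0 < t → Summable (fun v : Fin 4 → ℤ => Real.exp (-t * (qf A v : ℝ)))) :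
    qCoeff (thetaFun A) 0 = 1 ∧
      ∀ k : ℕ, 1 ≤ k → ∃ m : ℤ, qCoeff (thetaFun A) k = 2 * (m : ℂ) := by
  refine ⟨?_, fun k hk => ?_⟩
  · rw [qCoeff_theta_eq hsymm heven hpd hsum, repNum_zero hsymm heven hpd, Nat.cast_one]
  · obtain ⟨m, hm⟩ := even_repNum hsymm heven hpd k hk
    refine ⟨(m : ℤ), ?_⟩
    rw [qCoeff_theta_eq hsymm heven hpd hsum, hm]
    push_cast
    ring

end Fermat.Agent.S16.H346.QE

/-! ## The skeleton statements -/

noncomputable section

namespace Fermat.Agent.S16.H346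

open UpperHalfPlane ModularForm CongruenceSubgroup MatrixGroups ModularFormClass Matrix
open Fermat.Agent.S20 (MF SF)
open scoped Manifold

/-- **WP TH (q-expansion)**: EXACT skeleton statement `Skel.qCoeff_theta`. -/
theorem qCoeff_theta (p : ℕ) [Fact p.Prime] (A B : Matrix (Fin 4) (Fin 4) ℤ)
    (hA : IsGoodLattice p A B) :
    qCoeff (thetaFun A) 0 = 1 ∧ ∀ k : ℕ, 1 ≤ k → ∃ m : ℤ, qCoeff (thetaFun A) k = 2 * (m : ℂ) :=
  QE.qCoeff_theta_of hA.symm hA.even hA.posDef (fun _ ht => summable_gauss hA ht)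

/-- analyticity of the cusp function of `θ_A` at `0`. -/
theorem analyticAt_cuspFunction_theta (p : ℕ) [Fact p.Prime] (A B : Matrix (Fin 4) (Fin 4) ℤ)
    (hA : IsGoodLattice p A B) :
    AnalyticAt ℂ (cuspFunction 1 (thetaFun A)) 0 :=
  QE.analyticAt_cuspFunction_theta_of hA.symm hA.even hA.posDef (fun _ ht => summable_gauss hA ht)

/-- **WP TH (lower bound)**: a good lattice satisfying theta inversion gives the lower bound
(`G = θ_A / 2`). -/
theorem lowerBound_of (p : ℕ) [Fact p.Prime] (A B : Matrix (Fin 4) (Fin 4) ℤ)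
    (hA : IsGoodLattice p A B) (hinv : ThetaInv p A B) : LowerBound p := by
  have hmem := theta_mem_MF p A B hA hinv
  obtain ⟨h0, hk⟩ := qCoeff_theta p A B hA
  have han := analyticAt_cuspFunction_theta p A B hA
  refine ⟨(1 / 2 : ℂ) • thetaFun A, Submodule.smul_mem _ _ hmem, ?_, ?_⟩
  · unfold qCoeff at h0 ⊢
    rw [qExpansion_smul han, map_smul, h0]
    simp
  · intro k hk1
    obtain ⟨m, hm⟩ := hk k hk1
    refine ⟨m, ?_⟩
    unfold qCoeff at hm ⊢
    rw [qExpansion_smul han, map_smul, hm]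
    simp

end Fermat.Agent.S16.H346
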